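import Mathlib

/-!
# Unimodular lattices

`E` is a free `ℤ`-module of finite rank with a symmetric bilinear form `B : E → E → ℤ`.

* `IsUni B`: `B` is symmetric and unimodular (`E → Hom(E, ℤ)` is bijective);
* `IsUni.res_perp`: splitting off a vector `e` with `B e e = ± 1`;
* `IsUni.exists_hyperbolic`: an isotropic vector gives `w`, `z` with `B w w = 0`, `B w z = 1`;
* `IsUni.exists_pair`: if moreover the lattice is odd, there are orthogonal `e₁`, `e₂` with
  `B e₁ e₁ = 1`, `B e₂ e₂ = -1`;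
* `exists_orthogonal_of_odd`: for an odd prime `p`, an orthogonal family with values prime to `p`.
-/

set_option autoImplicit false

namespace Fermat.Agent.Cor.UL

open Module

variable {E : Type*} [AddCommGroup E]

/-- `B` is a symmetric unimodular form. -/
structure IsUni (B : E →ₗ[ℤ] E →ₗ[ℤ] ℤ) : Prop where
  symm : ∀ x y, B x y = B y x
  inj : ∀ x, (∀ y, B x y = 0) → x = 0
  surj : ∀ f : E →ₗ[ℤ] ℤ, ∃ x, ∀ y, B x y = f y

/-- the orthogonal complement of a vector -/
def perp (B : E →ₗ[ℤ] E →ₗ[ℤ] ℤ) (e : E) : Submodule ℤ E := LinearMap.ker (B e)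

lemma mem_perp {B : E →ₗ[ℤ] E →ₗ[ℤ] ℤ} {e x : E} : x ∈ perp B e ↔ B e x = 0 :=
  LinearMap.mem_ker

/-- restriction of a form to a sublattice -/
def res (B : E →ₗ[ℤ] E →ₗ[ℤ] ℤ) (N : Submodule ℤ E) : N →ₗ[ℤ] N →ₗ[ℤ] ℤ :=
  B.domRestrict₁₂ N N

lemma res_apply (B : E →ₗ[ℤ] E →ₗ[ℤ] ℤ) (N : Submodule ℤ E) (x y : N) :
    res B N x y = B (x : E) (y : E) := rfl

variable {B : E →ₗ[ℤ] E →ₗ[ℤ] ℤ}

/-- the projection to the complement of a vector `e` with `B e e = u`, `u² = 1` -/
lemma sub_mem_perp {e : E} {u : ℤ} (he : B e e = u) (hu : u * u = 1) (z : E) :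
    z - (u * B e z) • e ∈ perp B e := by
  rw [mem_perp, map_sub, map_smul, he, smul_eq_mul]
  linear_combination -(B e z) * hu

theorem IsUni.res_perp (hB : IsUni B) {e : E} {u : ℤ} (he : B e e = u) (hu : u * u = 1) :
    IsUni (res B (perp B e)) where
  symm x y := hB.symm _ _
  inj x hx := by
    have h0 : ∀ z, B (x : E) z = 0 := by
      intro z
      have h1 := hx ⟨_, sub_mem_perp he hu z⟩
      have h2 : B (x : E) e = 0 := by rw [hB.symm]; exact x.2
      rw [res_apply] at h1
      simp only [map_sub, map_smul, h2, smul_zero, sub_zero] at h1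
      exact h1
    exact Subtype.ext (hB.inj _ h0)
  surj f := by
    let g : E →ₗ[ℤ] perp B e :=
      { toFun := fun z => ⟨z - (u * B e z) • e, sub_mem_perp he hu z⟩
        map_add' := fun x y => by
          apply Subtype.ext
          change x + y - (u * B e (x + y)) • e = x - (u * B e x) • e + (y - (u * B e y) • e)
          rw [map_add, mul_add, add_smul]
          abel
        map_smul' := fun c x => by
          apply Subtype.ext
          change c • x - (u * B e (c • x)) • e = c • (x - (u * B e x) • e)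
          rw [map_smul, smul_eq_mul, smul_sub, smul_smul]
          congr 2
          ring }
    obtain ⟨x, hx⟩ := hB.surj (f.comp g)
    refine ⟨g x, fun y => ?_⟩
    have h1 : g y = y := by
      apply Subtype.ext
      change (y : E) - (u * B e y) • e = y
      have h2 : B e (y : E) = 0 := y.2
      rw [h2, mul_zero, zero_smul, sub_zero]
    have h3 := hx y
    rw [LinearMap.comp_apply, h1] at h3
    rw [← h3, res_apply]
    change B (x - (u * B e x) • e) (y : E) = _
    have h2 : B e (y : E) = 0 := y.2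
    rw [map_sub, map_smul, LinearMap.sub_apply, LinearMap.smul_apply, h2, smul_zero, sub_zero]

section Hyperbolic

variable [Module.Free ℤ E]

/-- a functional divisible by `d` -/
lemma exists_div {d : ℤ} (f : E →ₗ[ℤ] ℤ) (h : ∀ x, d ∣ f x) :
    ∃ g : E →ₗ[ℤ] ℤ, ∀ x, f x = d * g x := by
  let b := Module.Free.chooseBasis ℤ E
  refine ⟨b.constr ℤ fun i => f (b i) / d, fun x => ?_⟩
  have h1 : f = d • b.constr ℤ fun i => f (b i) / d := by
    refine b.ext fun i => ?_
    rw [LinearMap.smul_apply, b.constr_basis, smul_eq_mul, Int.mul_ediv_cancel' (h _)]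
  rw [h1, LinearMap.smul_apply, smul_eq_mul, ← h1]

/-- An isotropic vector gives a hyperbolic pair. -/
theorem IsUni.exists_hyperbolic (hB : IsUni B) {y : E} (hy : y ≠ 0) (h0 : B y y = 0) :
    ∃ w z : E, B w w = 0 ∧ B w z = 1 := by
  obtain ⟨d, hd⟩ := IsPrincipalIdealRing.principal (LinearMap.range (B y))
  have hmem : ∀ x, d ∣ B y x := fun x => by
    have h1 : B y x ∈ LinearMap.range (B y) := ⟨x, rfl⟩
    rw [hd, Submodule.mem_span_singleton] at h1
    obtain ⟨c, hc⟩ := h1
    exact ⟨c, by rw [← hc, smul_eq_mul, mul_comm]⟩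
  obtain ⟨z, hz⟩ : ∃ z, B y z = d := by
    have h1 : d ∈ LinearMap.range (B y) := by
      rw [hd]
      exact Submodule.mem_span_singleton_self d
    exact h1
  have hd0 : d ≠ 0 := by
    rintro rfl
    exact hy (hB.inj y fun x => by simpa using hmem x)
  obtain ⟨g, hg⟩ := exists_div (B y) hmem
  obtain ⟨w, hw⟩ := hB.surj g
  have hyw : y = d • w := by
    rw [← sub_eq_zero]
    refine hB.inj _ fun x => ?_
    rw [map_sub, map_smul, LinearMap.sub_apply, LinearMap.smul_apply, hg, hw, smul_eq_mul,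
      sub_self]
  refine ⟨w, z, ?_, ?_⟩
  · have h1 : d * (d * B w w) = 0 := by
      rw [hyw] at h0
      simpa using h0
    simpa [hd0] using h1
  · have h1 := hg z
    rw [hz] at h1
    rw [hw]
    have h2 : d * (g z - 1) = 0 := by linear_combination -h1
    have h3 := (mul_eq_zero.mp h2).resolve_left hd0
    omega

/-- Two orthogonal vectors of norms `1` and `-1` in an odd unimodular lattice with an isotropic
vector. -/
theorem IsUni.exists_pair (hB : IsUni B) {y : E} (hy : y ≠ 0) (h0 : B y y = 0)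
    (hodd : ∃ t, Odd (B t t)) : ∃ e₁ e₂ : E, B e₁ e₁ = 1 ∧ B e₂ e₂ = -1 ∧ B e₁ e₂ = 0 := by
  obtain ⟨w, z, hw, hz⟩ := hB.exists_hyperbolic hy h0
  obtain ⟨v, hv, hvodd⟩ : ∃ v, B w v = 1 ∧ Odd (B v v) := by
    by_cases hz' : Odd (B z z)
    · exact ⟨z, hz, hz'⟩
    · obtain ⟨t, ht⟩ := hodd
      refine ⟨t + (1 - B w t) • z, ?_, ?_⟩
      · rw [map_add, map_smul, hz, smul_eq_mul]
        ring
      · rw [Int.not_odd_iff_even] at hz'
        obtain ⟨m, hm⟩ := hz'
        obtain ⟨l, hl⟩ := ht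
        have h1 : B (t + (1 - B w t) • z) (t + (1 - B w t) • z) =
            B t t + 2 * (1 - B w t) * B t z + (1 - B w t) ^ 2 * B z z := by
          simp only [map_add, map_smul, LinearMap.add_apply, LinearMap.smul_apply, smul_eq_mul]
          rw [hB.symm z t]
          ring
        rw [h1, hm, hl]
        exact ⟨l + (1 - B w t) * B t z + (1 - B w t) ^ 2 * m, by ring⟩
  obtain ⟨m, hm⟩ := hvodd
  have hv' : B v w = 1 := by rw [hB.symm, hv]
  refine ⟨v - m • w, v - (m + 1) • w, ?_, ?_, ?_⟩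
  · simp only [map_sub, map_smul, LinearMap.sub_apply, LinearMap.smul_apply, smul_eq_mul, hv, hv',
      hw, hm]
    ring
  · simp only [map_sub, map_smul, LinearMap.sub_apply, LinearMap.smul_apply, smul_eq_mul, hv, hv',
      hw, hm]
    ring
  · simp only [map_sub, map_smul, LinearMap.sub_apply, LinearMap.smul_apply, smul_eq_mul, hv, hv',
      hw, hm]
    ring

end Hyperbolic

section Odd

/-- `B` is non-degenerate modulo `p`. -/
def NDp (B : E →ₗ[ℤ] E →ₗ[ℤ] ℤ) (p : ℤ) : Prop := ∀ x, (∀ y, p ∣ B x y) → ∃ z, x = p • z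

theorem IsUni.ndp [Module.Free ℤ E] (hB : IsUni B) (p : ℤ) : NDp B p := by
  intro x hx
  obtain ⟨g, hg⟩ := exists_div (B x) hx
  obtain ⟨w, hw⟩ := hB.surj g
  refine ⟨w, ?_⟩
  rw [← sub_eq_zero]
  refine hB.inj _ fun y => ?_
  rw [map_sub, map_smul, LinearMap.sub_apply, LinearMap.smul_apply, hg, hw, smul_eq_mul, sub_self]

theorem NDp.res_perp {p : ℤ} (hp : Prime p) (hs : ∀ x y, B x y = B y x) (h : NDp B p) {e : E}
    (he : ¬ p ∣ B e e) : NDp (res B (perp B e)) p := by
  intro x hx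
  have hxe : B (x : E) e = 0 := by rw [hs]; exact x.2
  obtain ⟨z, hz⟩ := h (x : E) fun y => by
    have h1 : B e e • y - B e y • e ∈ perp B e := by
      rw [mem_perp, map_sub, map_smul, map_smul, smul_eq_mul, smul_eq_mul]
      ring
    have h2 := hx ⟨_, h1⟩
    rw [res_apply] at h2
    simp only [map_sub, map_smul, hxe, smul_eq_mul, mul_zero, sub_zero] at h2
    exact (hp.dvd_or_dvd h2).resolve_left he
  have hz' : z ∈ perp B e := by
    have h1 : B e (x : E) = 0 := x.2
    rw [hz, map_smul, smul_eq_mul] at h1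
    exact (mul_eq_zero.mp h1).resolve_left hp.ne_zero
  exact ⟨⟨z, hz'⟩, Subtype.ext hz⟩

variable [Module.Free ℤ E] [Module.Finite ℤ E]

omit [Module.Free ℤ E] in
theorem finrank_perp {e : E} (he : B e e ≠ 0) : finrank ℤ (perp B e) + 1 = finrank ℤ E := by
  have h1 := (LinearMap.ker (B e)).finrank_quotient_add_finrank
  rw [(B e).quotKerEquivRange.finrank_eq] at h1
  have h2 : finrank ℤ (LinearMap.range (B e)) = 1 := by
    refine le_antisymm ?_ ?_
    · calc finrank ℤ (LinearMap.range (B e)) ≤ finrank ℤ ℤ := Submodule.finrank_le _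
        _ = 1 := Module.finrank_self ℤ
    · rw [Nat.one_le_iff_ne_zero, Nat.ne_zero_iff_zero_lt, Module.finrank_pos_iff]
      refine ⟨⟨⟨B e e, e, rfl⟩, 0, fun h => he (congrArg Subtype.val h)⟩⟩
  rw [h2] at h1
  rw [perp]
  omega

theorem exists_not_dvd {p : ℤ} (hp : Prime p) (h2 : ¬ p ∣ 2) (hs : ∀ x y, B x y = B y x)
    (h : NDp B p) (hE : 0 < finrank ℤ E) : ∃ e, ¬ p ∣ B e e := by
  by_contra! hcon
  let b := Module.finBasis ℤ E
  obtain ⟨z, hz⟩ := h (b ⟨0, hE⟩) fun y => by
    have h3 := hcon (b ⟨0, hE⟩ + y)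
    simp only [map_add, LinearMap.add_apply] at h3
    rw [hs y (b ⟨0, hE⟩)] at h3
    have h4 : p ∣ 2 * B (b ⟨0, hE⟩) y := by
      obtain ⟨k, hk⟩ := h3
      obtain ⟨l, hl⟩ := hcon (b ⟨0, hE⟩)
      obtain ⟨m, hm⟩ := hcon y
      exact ⟨k - l - m, by linear_combination hk - hl - hm⟩
    exact (hp.dvd_or_dvd h4).resolve_left h2
  have h3 := congrArg (fun x => b.repr x ⟨0, hE⟩) hz
  simp only [b.repr_self, Finsupp.single_eq_same, map_smul, Finsupp.smul_apply, smul_eq_mul] at h3
  exact hp.not_isUnit (IsUnit.of_mul_eq_one _ h3.symm)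

end Odd

/-- **An orthogonal family with values prime to the odd prime `p`.** -/
theorem exists_orthogonal_of_odd {p : ℤ} (hp : Prime p) (h2 : ¬ p ∣ 2) (n : ℕ) :
    ∀ (E : Type*) [AddCommGroup E] [Module.Free ℤ E] [Module.Finite ℤ E]
      (B : E →ₗ[ℤ] E →ₗ[ℤ] ℤ), (∀ x y, B x y = B y x) → NDp B p → finrank ℤ E = n →
      ∃ e : Fin n → E, (∀ i j, i ≠ j → B (e i) (e j) = 0) ∧ ∀ i, ¬ p ∣ B (e i) (e i) := by
  induction n with
  | zero =>
    intro E _ _ _ B _ _ _
    exact ⟨Fin.elim0, fun i => i.elim0, fun i => i.elim0⟩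
  | succ n ih =>
    intro E _ _ _ B hs h hn
    obtain ⟨e, he⟩ := exists_not_dvd hp h2 hs h (by omega)
    have he0 : B e e ≠ 0 := fun h0 => he (h0 ▸ dvd_zero p)
    have hr := finrank_perp he0
    obtain ⟨f, hf1, hf2⟩ := ih (perp B e) (res B (perp B e)) (fun x y => hs _ _)
      (h.res_perp hp hs he) (by omega)
    refine ⟨Fin.cons e fun i => (f i : E), fun i j hij => ?_, fun i => ?_⟩
    · rcases Fin.eq_zero_or_eq_succ i with rfl | ⟨i, rfl⟩ <;>
        rcases Fin.eq_zero_or_eq_succ j with rfl | ⟨j, rfl⟩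
      · exact absurd rfl hij
      · exact (f j).2
      · change B (f i : E) e = 0
        rw [hs]
        exact (f i).2
      · exact hf1 i j fun h0 => hij (by rw [h0])
    · rcases Fin.eq_zero_or_eq_succ i with rfl | ⟨i, rfl⟩
      · exact he
      · exact hf2 i

end Fermat.Agent.Cor.UL
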