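import Fermat.Agent.Corollaries.UL.EvenClass

/-!
# `E₈`, and the structure of the even indefinite unimodular lattices

* `e8`: the lattice with the Gram matrix `CartanMatrix.E₈`; `isUni_e8`, `even_e8`, `pos_e8`;
* `pw B m`: the orthogonal sum of `m` copies of `B`;
* `IsUni.exists_iso_of_even`: an even indefinite unimodular lattice is `p U ⊕ q (± E₈)`;
* `exists_even_iff`: there is one of rank `n` and index `s` iff `0 < s < n` and `8 ∣ n - 2 s`.
-/

set_option autoImplicit false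

namespace Fermat.Agent.Cor.UL

open Module Fermat.Agent.Cor.HM

section Coords

variable {E : Type*} [AddCommGroup E] [Module.Free ℤ E] [Module.Finite ℤ E]
  {B : E →ₗ[ℤ] E →ₗ[ℤ] ℤ}

/-- coordinates over `ℚ` in which the form is standard -/
theorem IsUni.exists_coords (hB : IsUni B) : ∃ f : E → (Fin (finrank ℤ E) → ℚ),
    (∀ x, f x = 0 → x = 0) ∧ ∀ x, (B x x : ℚ) =
      ∑ i : Fin (finrank ℤ E), (if (i : ℕ) < negIdx B then -1 else 1) * f x i ^ 2 := by
  obtain ⟨e⟩ := hB.equivalent_std' (Module.finBasis ℤ E)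
  refine ⟨fun x => e fun i => ((Module.finBasis ℤ E).repr x i : ℚ), fun x hx => ?_, fun x => ?_⟩
  · have h1 : (fun i => ((Module.finBasis ℤ E).repr x i : ℚ)) = 0 := by
      have h2 := congrArg e.symm hx
      rwa [e.symm_apply_apply, map_zero] at h2
    have h3 : (Module.finBasis ℤ E).repr x = 0 := by
      ext i
      have h4 := congrFun h1 i
      simpa using h4
    exact (LinearEquiv.map_eq_zero_iff _).mp h3
  · rw [← qf_repr (B := B) (Module.finBasis ℤ E) x, ← e.map_app, wf_apply]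
    refine Finset.sum_congr rfl fun i _ => ?_
    have h1 : ((std (finrank ℤ E) (sigNeg (qf (gramQ (Module.finBasis ℤ E) B))) i : ℚˣ) : ℚ) =
        if (i : ℕ) < negIdx B then -1 else 1 := by
      rw [std, negIdx]
      split_ifs <;> simp
    rw [h1]

/-- index `0`: positive definite -/
theorem IsUni.pos_of_negIdx (hB : IsUni B) (h : negIdx B = 0) {x : E} (hx : x ≠ 0) :
    0 < B x x := by
  obtain ⟨f, h1, h2⟩ := hB.exists_coords
  have h3 := h2 x
  simp only [h, Nat.not_lt_zero, if_false, one_mul] at h3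
  have h4 : f x ≠ 0 := fun h => hx (h1 x h)
  obtain ⟨i, hi⟩ := Function.ne_iff.mp h4
  have h5 : (0 : ℚ) < B x x := by
    rw [h3]
    exact Finset.sum_pos' (fun i _ => sq_nonneg _) ⟨i, Finset.mem_univ i, by
      have h6 : f x i ≠ 0 := hi
      positivity⟩
  exact_mod_cast h5

theorem IsUni.negIdx_pos (hB : IsUni B) (h : ∃ y, B y y < 0) : 0 < negIdx B := by
  rw [Nat.pos_iff_ne_zero]
  intro h0
  obtain ⟨y, hy⟩ := h
  have h1 : y ≠ 0 := by
    rintro rfl
    rw [map_zero] at hy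
    exact lt_irrefl _ hy
  exact lt_asymm hy (hB.pos_of_negIdx h0 h1)

theorem IsUni.negIdx_lt (hB : IsUni B) (h : ∃ x, 0 < B x x) : negIdx B < finrank ℤ E := by
  by_contra! hcon
  obtain ⟨x, hx⟩ := h
  obtain ⟨f, -, h2⟩ := hB.exists_coords
  have h3 : (B x x : ℚ) ≤ 0 := by
    rw [h2 x]
    refine Finset.sum_nonpos fun i _ => ?_
    rw [if_pos (lt_of_lt_of_le i.2 hcon), neg_one_mul]
    exact neg_nonpos.mpr (sq_nonneg _)
  have h4 : B x x ≤ (0 : ℤ) := by exact_mod_cast h3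
  omega

end Coords

section E8

open Matrix

/-- the lattice with the Gram matrix `A` -/
noncomputable def mform {n : ℕ} (A : Matrix (Fin n) (Fin n) ℤ) :
    (Fin n → ℤ) →ₗ[ℤ] (Fin n → ℤ) →ₗ[ℤ] ℤ := Matrix.toLinearMap₂' ℤ A

lemma mform_apply {n : ℕ} (A : Matrix (Fin n) (Fin n) ℤ) (x y : Fin n → ℤ) :
    mform A x y = x ⬝ᵥ A *ᵥ y := Matrix.toLinearMap₂'_apply' A x y

theorem isUni_mform {n : ℕ} {A : Matrix (Fin n) (Fin n) ℤ} (hs : Aᵀ = A) (hA : IsUnit A.det) :
    IsUni (mform A) where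
  symm x y := by
    rw [mform_apply, mform_apply, Matrix.dotProduct_mulVec, ← Matrix.mulVec_transpose, hs,
      dotProduct_comm]
  inj x hx := by
    have h1 : A *ᵥ x = 0 := by
      refine dotProduct_eq_zero _ fun y => ?_
      rw [← hx y, mform_apply, Matrix.dotProduct_mulVec, ← Matrix.mulVec_transpose, hs]
    have h2 := congrArg (fun v => A⁻¹ *ᵥ v) h1
    simpa only [Matrix.mulVec_mulVec, Matrix.nonsing_inv_mul A hA, Matrix.one_mulVec,
      Matrix.mulVec_zero] using h2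
  surj f := by
    refine ⟨A⁻¹ *ᵥ fun i => f (fun j => if i = j then 1 else 0), fun y => ?_⟩
    rw [mform_apply, Matrix.dotProduct_mulVec, ← Matrix.mulVec_transpose, hs,
      Matrix.mulVec_mulVec, Matrix.mul_nonsing_inv A hA, Matrix.one_mulVec,
      f.pi_apply_eq_sum_univ y, dotProduct]
    exact Finset.sum_congr rfl fun i _ => by rw [smul_eq_mul, mul_comm]

theorem even_mform {n : ℕ} {A : Matrix (Fin n) (Fin n) ℤ} (hs : Aᵀ = A) (h : ∀ i, Even (A i i))
    (x : Fin n → ℤ) : Even (mform A x x) := by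
  have h1 : IsChar (mform A) 0 := by
    refine isChar_of_basis (fun x y => ?_) (Pi.basisFun ℤ (Fin n)) fun i => ?_
    · rw [mform_apply, mform_apply, Matrix.dotProduct_mulVec, ← Matrix.mulVec_transpose, hs,
        dotProduct_comm]
    · rw [map_zero, LinearMap.zero_apply, zero_sub, even_neg, Pi.basisFun_apply, mform_apply]
      simpa using h i
  have h2 := h1 x
  rwa [map_zero, LinearMap.zero_apply, zero_sub, even_neg] at h2

/-- **The lattice `E₈`.** -/
noncomputable def e8 : (Fin 8 → ℤ) →ₗ[ℤ] (Fin 8 → ℤ) →ₗ[ℤ] ℤ := mform CartanMatrix.E₈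

theorem isUni_e8 : IsUni e8 :=
  isUni_mform CartanMatrix.E₈_transpose (by rw [CartanMatrix.E₈_det]; exact isUnit_one)

theorem even_e8 (x : Fin 8 → ℤ) : Even (e8 x x) :=
  even_mform CartanMatrix.E₈_transpose (fun i => by rw [CartanMatrix.E₈_diag]; decide) x

/-- an orthogonal family in `E₈` -/
def e8fam : Fin 8 → Fin 8 → ℤ :=
  ![![1, 0, 0, 0, 0, 0, 0, 0],
    ![0, 1, 0, 0, 0, 0, 0, 0],
    ![1, 0, 2, 0, 0, 0, 0, 0],
    ![2, 3, 4, 6, 0, 0, 0, 0],
    ![2, 3, 4, 6, 5, 0, 0, 0],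
    ![2, 3, 4, 6, 5, 4, 0, 0],
    ![2, 3, 4, 6, 5, 4, 3, 0],
    ![2, 3, 4, 6, 5, 4, 3, 2]]

theorem e8fam_eq (i j : Fin 8) : e8fam i ⬝ᵥ CartanMatrix.E₈ *ᵥ e8fam j =
    if i = j then ![2, 2, 6, 30, 20, 12, 6, 2] i else 0 := by
  revert i j
  decide

theorem negIdx_e8 : negIdx e8 = 0 := by
  have h : ∀ i j, e8 (e8fam i) (e8fam j) = if i = j then ![2, 2, 6, 30, 20, 12, 6, 2] i else 0 :=
    fun i j => by rw [e8, mform_apply, e8fam_eq]
  rw [negIdx_eq_card (n := 8) (Module.finrank_fin_fun ℤ) (e := e8fam)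
    (fun i j hij => by rw [h, if_neg hij]) fun i => by
      rw [h, if_pos rfl]
      revert i
      decide]
  simp only [h, if_true]
  decide

/-- **`E₈` is positive definite.** -/
theorem pos_e8 {x : Fin 8 → ℤ} (hx : x ≠ 0) : 0 < e8 x x := isUni_e8.pos_of_negIdx negIdx_e8 hx

end E8

section Neg

variable {E : Type*} [AddCommGroup E] {B : E →ₗ[ℤ] E →ₗ[ℤ] ℤ}

lemma neg_apply2 (x y : E) : (-B) x y = -B x y := rfl

theorem IsUni.neg (hB : IsUni B) : IsUni (-B) where
  symm x y := by rw [neg_apply2, neg_apply2, hB.symm]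
  inj x hx := hB.inj x fun y => by
    have h := hx y
    rwa [neg_apply2, neg_eq_zero] at h
  surj f := by
    obtain ⟨x, hx⟩ := hB.surj f
    exact ⟨-x, fun y => by rw [neg_apply2, map_neg, LinearMap.neg_apply, neg_neg, hx]⟩

theorem IsUni.negIdx_neg [Module.Free ℤ E] [Module.Finite ℤ E] (hB : IsUni B) :
    negIdx (-B) + negIdx B = finrank ℤ E := by
  obtain ⟨e, h1, h2⟩ := hB.exists_family
  rw [negIdx_eq_card rfl h1 h2, negIdx_eq_card (B := -B) rfl (e := e)
    (fun i j hij => by rw [neg_apply2, h1 i j hij, neg_zero])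
    fun i => by rw [neg_apply2]; exact neg_ne_zero.mpr (h2 i)]
  have h3 : (Finset.univ.filter fun i => (-B) (e i) (e i) < 0) =
      Finset.univ.filter fun i => ¬ B (e i) (e i) < 0 := by
    ext i
    rw [Finset.mem_filter, Finset.mem_filter, neg_apply2]
    have h4 := h2 i
    constructor
    · rintro ⟨h5, h6⟩
      exact ⟨h5, by omega⟩
    · rintro ⟨h5, h6⟩
      exact ⟨h5, by omega⟩
  rw [h3, add_comm, Finset.card_filter_add_card_filter_not, Finset.card_univ, Fintype.card_fin]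

end Neg

section Pw

variable {E : Type*} [AddCommGroup E]

/-- the orthogonal sum of `m` copies of `B` -/
def pw (B : E →ₗ[ℤ] E →ₗ[ℤ] ℤ) (m : ℕ) : (Fin m → E) →ₗ[ℤ] (Fin m → E) →ₗ[ℤ] ℤ :=
  ∑ i, B.compl₁₂ (LinearMap.proj i) (LinearMap.proj i)

variable {B : E →ₗ[ℤ] E →ₗ[ℤ] ℤ}

lemma pw_apply {m : ℕ} (x y : Fin m → E) : pw B m x y = ∑ i, B (x i) (y i) := by
  rw [pw, LinearMap.sum_apply, LinearMap.sum_apply]
  rfl

lemma pw_single {m : ℕ} (x : Fin m → E) (i : Fin m) (z : E) :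
    pw B m x (Pi.single i z) = B (x i) z := by
  rw [pw_apply, Finset.sum_eq_single i (fun j _ hj => by
    rw [Pi.single_eq_of_ne hj, map_zero]) fun h => absurd (Finset.mem_univ i) h,
    Pi.single_eq_same]

lemma pw_single_self {m : ℕ} (i : Fin m) (z : E) :
    pw B m (Pi.single i z) (Pi.single i z) = B z z := by
  rw [pw_single, Pi.single_eq_same]

lemma osum_inl {E' : Type*} [AddCommGroup E'] {B' : E' →ₗ[ℤ] E' →ₗ[ℤ] ℤ} (x : E) :
    osum B B' (x, 0) (x, 0) = B x x := by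
  rw [osum_apply]
  simp

theorem IsUni.pw (hB : IsUni B) (m : ℕ) : IsUni (UL.pw B m) where
  symm x y := by
    rw [pw_apply, pw_apply]
    exact Finset.sum_congr rfl fun i _ => hB.symm _ _
  inj x hx := by
    ext1 i
    exact hB.inj _ fun z => by rw [← pw_single, hx]
  surj f := by
    choose x hx using fun i => hB.surj (f.comp (LinearMap.single ℤ (fun _ => E) i))
    refine ⟨x, fun y => ?_⟩
    rw [pw_apply]
    conv_rhs => rw [← Finset.univ_sum_single y, map_sum]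
    exact Finset.sum_congr rfl fun i _ => hx i (y i)

lemma even_pw (h : ∀ x, Even (B x x)) {m : ℕ} (x : Fin m → E) : Even (UL.pw B m x x) := by
  rw [pw_apply]
  exact Finset.even_sum _ fun i _ => h _

theorem IsUni.negIdx_pw [Module.Free ℤ E] [Module.Finite ℤ E] (hB : IsUni B) (m : ℕ) :
    negIdx (UL.pw B m) = m * negIdx B := by
  obtain ⟨e, h1, h2⟩ := hB.exists_family
  have hd : ∀ k, UL.pw B m (Pi.single (finProdFinEquiv.symm k).1 (e (finProdFinEquiv.symm k).2))
      (Pi.single (finProdFinEquiv.symm k).1 (e (finProdFinEquiv.symm k).2)) =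
      B (e (finProdFinEquiv.symm k).2) (e (finProdFinEquiv.symm k).2) := fun k => by
    rw [pw_single, Pi.single_eq_same]
  rw [negIdx_eq_card (n := m * finrank ℤ E) (by
      rw [Module.finrank_pi_fintype, Finset.sum_const, Finset.card_univ, Fintype.card_fin,
        smul_eq_mul])
    (e := fun k => Pi.single (finProdFinEquiv.symm k).1 (e (finProdFinEquiv.symm k).2))
    (fun k l hkl => ?_) fun k => ?_, negIdx_eq_card rfl h1 h2]
  · simp only [hd]
    rw [Finset.card_filter, Finset.card_filter,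
      Equiv.sum_comp finProdFinEquiv.symm fun q : Fin m × Fin (finrank ℤ E) =>
        if B (e q.2) (e q.2) < 0 then 1 else 0, Fintype.sum_prod_type]
    have h3 : ∀ x ∈ (Finset.univ : Finset (Fin m)),
        (∑ y : Fin (finrank ℤ E), if B (e (x, y).2) (e (x, y).2) < 0 then 1 else 0) =
          ∑ y, if B (e y) (e y) < 0 then 1 else 0 := fun x _ => rfl
    rw [Finset.sum_congr rfl h3, Finset.sum_const, Finset.card_univ, Fintype.card_fin,
      smul_eq_mul]
  · rw [pw_single]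
    by_cases hi : (finProdFinEquiv.symm l).1 = (finProdFinEquiv.symm k).1
    · rw [hi, Pi.single_eq_same]
      refine h1 _ _ fun h => hkl ?_
      exact finProdFinEquiv.symm.injective (Prod.ext hi.symm h)
    · rw [Pi.single_eq_of_ne hi, map_zero, LinearMap.zero_apply]
  · rw [hd]
    exact h2 _

end Pw

section Structure

/-- `p U ⊕ q E₈` -/
noncomputable def ev (p q : ℕ) := osum (pw hyp p) (pw e8 q)

/-- `p U ⊕ q (-E₈)` -/
noncomputable def ev' (p q : ℕ) := osum (pw hyp p) (pw (-e8) q)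

theorem isUni_ev (p q : ℕ) : IsUni (ev p q) := (isUni_hyp.pw p).osum (isUni_e8.pw q)

theorem isUni_ev' (p q : ℕ) : IsUni (ev' p q) := (isUni_hyp.pw p).osum (isUni_e8.neg.pw q)

lemma even_hyp (x : ℤ × ℤ) : Even (hyp x x) := ⟨x.1 * x.2, by rw [hyp_apply]; ring⟩

theorem even_ev (p q : ℕ) (x) : Even (ev p q x x) := by
  rw [ev, osum_apply]
  exact (even_pw even_hyp _).add (even_pw even_e8 _)

theorem even_ev' (p q : ℕ) (x) : Even (ev' p q x x) := by
  rw [ev', osum_apply]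
  refine (even_pw even_hyp _).add (even_pw (fun x => ?_) _)
  rw [neg_apply2, even_neg]
  exact even_e8 x

theorem finrank_ev (p q : ℕ) :
    finrank ℤ ((Fin p → ℤ × ℤ) × (Fin q → Fin 8 → ℤ)) = 2 * p + 8 * q := by
  rw [Module.finrank_prod, Module.finrank_pi_fintype, Module.finrank_pi_fintype]
  simp only [Module.finrank_prod, Module.finrank_self, Module.finrank_fin_fun, Finset.sum_const,
    Finset.card_univ, Fintype.card_fin, smul_eq_mul]
  ring

theorem negIdx_ev (p q : ℕ) : negIdx (ev p q) = p := by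
  rw [ev, (isUni_hyp.pw p).negIdx_osum (isUni_e8.pw q), isUni_hyp.negIdx_pw, isUni_e8.negIdx_pw,
    negIdx_hyp, negIdx_e8]
  ring

theorem negIdx_ev' (p q : ℕ) : negIdx (ev' p q) = p + 8 * q := by
  have h : negIdx (-e8) = 8 := by
    have h1 := isUni_e8.negIdx_neg
    rwa [negIdx_e8, Module.finrank_fin_fun, add_zero] at h1
  rw [ev', (isUni_hyp.pw p).negIdx_osum (isUni_e8.neg.pw q), isUni_hyp.negIdx_pw,
    isUni_e8.neg.negIdx_pw, negIdx_hyp, h]
  ring

lemma pos_ev {p : ℕ} (hp : 0 < p) (q : ℕ) : ∃ x, 0 < ev p q x x :=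
  ⟨(Pi.single ⟨0, hp⟩ (1, 1), 0), by
    rw [ev, osum_inl, pw_single_self, hyp_apply]
    norm_num⟩

lemma neg_ev {p : ℕ} (hp : 0 < p) (q : ℕ) : ∃ x, ev p q x x < 0 :=
  ⟨(Pi.single ⟨0, hp⟩ (1, -1), 0), by
    rw [ev, osum_inl, pw_single_self, hyp_apply]
    norm_num⟩

lemma pos_ev' {p : ℕ} (hp : 0 < p) (q : ℕ) : ∃ x, 0 < ev' p q x x :=
  ⟨(Pi.single ⟨0, hp⟩ (1, 1), 0), by
    rw [ev', osum_inl, pw_single_self, hyp_apply]
    norm_num⟩

lemma neg_ev' {p : ℕ} (hp : 0 < p) (q : ℕ) : ∃ x, ev' p q x x < 0 :=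
  ⟨(Pi.single ⟨0, hp⟩ (1, -1), 0), by
    rw [ev', osum_inl, pw_single_self, hyp_apply]
    norm_num⟩

/-- **The even indefinite unimodular lattices are the `p U ⊕ q (± E₈)`.** -/
theorem IsUni.exists_iso_of_even {E : Type*} [AddCommGroup E] [Module.Free ℤ E]
    [Module.Finite ℤ E] {B : E →ₗ[ℤ] E →ₗ[ℤ] ℤ} (hB : IsUni B) (heven : ∀ x, Even (B x x))
    (hpos : ∃ x, 0 < B x x) (hneg : ∃ y, B y y < 0) :
    ∃ p q : ℕ, 0 < p ∧ (Iso B (ev p q) ∨ Iso B (ev' p q)) := by
  have h0 := hB.negIdx_pos hneg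
  have h1 := hB.negIdx_lt hpos
  obtain ⟨k, hk⟩ := hB.eight_dvd_of_even heven
  rcases le_total 0 k with h | h
  · refine ⟨negIdx B, k.toNat, h0, Or.inl ?_⟩
    rw [hB.iso_iff_of_even heven hpos hneg (isUni_ev _ _) (even_ev _ _) (pos_ev h0 _)
      (neg_ev h0 _), finrank_ev, negIdx_ev]
    refine ⟨?_, rfl⟩
    omega
  · have h2 : 0 < finrank ℤ E - negIdx B := by omega
    refine ⟨finrank ℤ E - negIdx B, (-k).toNat, h2, Or.inr ?_⟩
    rw [hB.iso_iff_of_even heven hpos hneg (isUni_ev' _ _) (even_ev' _ _) (pos_ev' h2 _)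
      (neg_ev' h2 _), finrank_ev, negIdx_ev']
    omega

/-- **The rank and the index of the even indefinite unimodular lattices.** -/
theorem exists_even_iff (n s : ℕ) : (∃ B : (Fin n → ℤ) →ₗ[ℤ] (Fin n → ℤ) →ₗ[ℤ] ℤ, IsUni B ∧
    (∀ x, Even (B x x)) ∧ (∃ x, 0 < B x x) ∧ (∃ y, B y y < 0) ∧ negIdx B = s) ↔
      0 < s ∧ s < n ∧ (8 : ℤ) ∣ n - 2 * s := by
  constructor
  · rintro ⟨B, hB, heven, hpos, hneg, rfl⟩
    have h1 := hB.negIdx_lt hpos
    have h2 := hB.eight_dvd_of_even heven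
    rw [Module.finrank_fin_fun] at h1 h2
    exact ⟨hB.negIdx_pos hneg, h1, h2⟩
  · rintro ⟨h0, h1, k, hk⟩
    have key : ∀ (E : Type) [AddCommGroup E] [Module.Free ℤ E] [Module.Finite ℤ E]
        (L : E →ₗ[ℤ] E →ₗ[ℤ] ℤ), finrank ℤ E = n → IsUni L → (∀ x, Even (L x x)) →
        (∃ x, 0 < L x x) → (∃ y, L y y < 0) → negIdx L = s →
        ∃ B : (Fin n → ℤ) →ₗ[ℤ] (Fin n → ℤ) →ₗ[ℤ] ℤ, IsUni B ∧
          (∀ x, Even (B x x)) ∧ (∃ x, 0 < B x x) ∧ (∃ y, B y y < 0) ∧ negIdx B = s := by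
      intro E _ _ _ L hn hL h2 h3 h4 h5
      subst hn
      let e := (Module.finBasis ℤ E).equivFun
      have hi : Iso L (L.compl₁₂ e.symm.toLinearMap e.symm.toLinearMap) := by
        refine ⟨e, fun x y => ?_⟩
        rw [LinearMap.compl₁₂_apply, LinearEquiv.coe_coe, e.symm_apply_apply,
          e.symm_apply_apply]
      have hv : ∀ x, L.compl₁₂ e.symm.toLinearMap e.symm.toLinearMap (e x) (e x) = L x x :=
        fun x => by
          rw [LinearMap.compl₁₂_apply, LinearEquiv.coe_coe, e.symm_apply_apply]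
      refine ⟨_, hi.isUni hL, fun x => h2 _, ?_, ?_, (hi.negIdx_eq hL).symm.trans h5⟩
      · obtain ⟨x, hx⟩ := h3
        exact ⟨e x, by rwa [hv]⟩
      · obtain ⟨x, hx⟩ := h4
        exact ⟨e x, by rwa [hv]⟩
    rcases le_total 0 k with h | h
    · exact key _ (ev s k.toNat) (by rw [finrank_ev]; omega) (isUni_ev _ _) (even_ev _ _)
        (pos_ev h0 _) (neg_ev h0 _) (negIdx_ev _ _)
    · have h2 : 0 < n - s := by omega
      exact key _ (ev' (n - s) (-k).toNat) (by rw [finrank_ev]; omega) (isUni_ev' _ _)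
        (even_ev' _ _) (pos_ev' h2 _) (neg_ev' h2 _) (by rw [negIdx_ev']; omega)

end Structure

end Fermat.Agent.Cor.UL
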