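import Fermat.Agent.Corollaries.UL.Odd

/-!
# Characteristic vectors; the signature of an even unimodular lattice

* `osum B B'`: the orthogonal sum; `one ε`: the form `ε x y` on `ℤ`; `hyp`: the hyperbolic plane;
* `negIdx B`: the negative index of inertia; `IsUni.negIdx_osum`;
* `IsUni.exists_isChar`: there is `u` with `B u x ≡ B x x` modulo `2` for all `x`;
* `IsUni.eight_dvd_of_isChar` (van der Blij): `B u u` is congruent to the signature modulo `8`;
* `IsUni.eight_dvd_of_even`: the signature of an even unimodular lattice is divisible by `8`.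
-/

set_option autoImplicit false

namespace Fermat.Agent.Cor.UL

open Module Fermat.Agent.Cor.HM

section Sum

variable {E E' : Type*} [AddCommGroup E] [AddCommGroup E']

/-- the orthogonal sum -/
def osum (B : E →ₗ[ℤ] E →ₗ[ℤ] ℤ) (B' : E' →ₗ[ℤ] E' →ₗ[ℤ] ℤ) :
    (E × E') →ₗ[ℤ] (E × E') →ₗ[ℤ] ℤ :=
  B.compl₁₂ (LinearMap.fst ℤ E E') (LinearMap.fst ℤ E E') +
    B'.compl₁₂ (LinearMap.snd ℤ E E') (LinearMap.snd ℤ E E')

lemma osum_apply (B : E →ₗ[ℤ] E →ₗ[ℤ] ℤ) (B' : E' →ₗ[ℤ] E' →ₗ[ℤ] ℤ) (x y : E × E') :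
    osum B B' x y = B x.1 y.1 + B' x.2 y.2 := rfl

variable {B : E →ₗ[ℤ] E →ₗ[ℤ] ℤ} {B' : E' →ₗ[ℤ] E' →ₗ[ℤ] ℤ}

theorem IsUni.osum (hB : IsUni B) (hB' : IsUni B') : IsUni (UL.osum B B') where
  symm x y := by rw [osum_apply, osum_apply, hB.symm, hB'.symm]
  inj x hx := by
    refine Prod.ext (hB.inj _ fun y => ?_) (hB'.inj _ fun y => ?_)
    · have h := hx (y, 0)
      rwa [osum_apply, map_zero, add_zero] at h
    · have h := hx (0, y)
      rwa [osum_apply, map_zero, zero_add] at h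
  surj f := by
    obtain ⟨x, hx⟩ := hB.surj (f.comp (LinearMap.inl ℤ E E'))
    obtain ⟨x', hx'⟩ := hB'.surj (f.comp (LinearMap.inr ℤ E E'))
    refine ⟨(x, x'), fun y => ?_⟩
    rw [osum_apply, hx, hx', LinearMap.comp_apply, LinearMap.comp_apply, ← map_add]
    congr 1
    simp

/-- the form `ε x y` on `ℤ` -/
def one (ε : ℤ) : ℤ →ₗ[ℤ] ℤ →ₗ[ℤ] ℤ := ε • LinearMap.mul ℤ ℤ

lemma one_apply (ε x y : ℤ) : one ε x y = ε * (x * y) := rfl

theorem isUni_one {ε : ℤ} (h : ε * ε = 1) : IsUni (one ε) where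
  symm x y := by rw [one_apply, one_apply]; ring
  inj x hx := by
    have h1 := hx 1
    rw [one_apply, mul_one] at h1
    have h2 : ε * ε * x = 0 := by linear_combination ε * h1
    rwa [h, one_mul] at h2
  surj f := by
    refine ⟨ε * f 1, fun y => ?_⟩
    rw [one_apply]
    have h1 : f y = y * f 1 := by
      have h2 := f.map_smul y 1
      rwa [smul_eq_mul, mul_one, smul_eq_mul] at h2
    rw [h1]
    linear_combination (f 1 * y) * h

/-- the hyperbolic plane -/
def hyp : (ℤ × ℤ) →ₗ[ℤ] (ℤ × ℤ) →ₗ[ℤ] ℤ :=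
  (LinearMap.mul ℤ ℤ).compl₁₂ (LinearMap.fst ℤ ℤ ℤ) (LinearMap.snd ℤ ℤ ℤ) +
    (LinearMap.mul ℤ ℤ).compl₁₂ (LinearMap.snd ℤ ℤ ℤ) (LinearMap.fst ℤ ℤ ℤ)

lemma hyp_apply (x y : ℤ × ℤ) : hyp x y = x.1 * y.2 + x.2 * y.1 := rfl

theorem isUni_hyp : IsUni hyp where
  symm x y := by rw [hyp_apply, hyp_apply]; ring
  inj x hx := by
    have h1 := hx (1, 0)
    have h2 := hx (0, 1)
    rw [hyp_apply] at h1 h2
    exact Prod.ext (by simpa using h2) (by simpa using h1)
  surj f := by
    refine ⟨(f (0, 1), f (1, 0)), fun y => ?_⟩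
    rw [hyp_apply]
    have h1 : f y = y.1 * f (1, 0) + y.2 * f (0, 1) := by
      have h2 : y = y.1 • ((1, 0) : ℤ × ℤ) + y.2 • ((0, 1) : ℤ × ℤ) := by
        ext <;> simp
      conv_lhs => rw [h2]
      rw [map_add, map_smul, map_smul, smul_eq_mul, smul_eq_mul]
    rw [h1]
    ring

end Sum

section Index

variable {E : Type*} [AddCommGroup E] [Module.Free ℤ E] [Module.Finite ℤ E]

/-- **The negative index of inertia.** -/
noncomputable def negIdx (B : E →ₗ[ℤ] E →ₗ[ℤ] ℤ) : ℕ :=
  sigNeg (qf (gramQ (Module.finBasis ℤ E) B))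

variable {B : E →ₗ[ℤ] E →ₗ[ℤ] ℤ}

omit [Module.Free ℤ E] [Module.Finite ℤ E] in
/-- the index from an orthogonal family, in any basis -/
theorem sigNeg_eq_card {n : ℕ} (b : Basis (Fin n) ℤ E) {e : Fin n → E}
    (h : ∀ i j, i ≠ j → B (e i) (e j) = 0) (h0 : ∀ i, B (e i) (e i) ≠ 0) :
    sigNeg (qf (gramQ b B)) = (Finset.univ.filter fun i => B (e i) (e i) < 0).card := by
  obtain ⟨a, ha, he, -⟩ := exists_diag_of_family (B := B) b h h0
  rw [he.sigNeg_eq, sigNeg_wf, negCard_eq_card]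
  congr 1
  ext i
  rw [Finset.mem_filter, Finset.mem_filter, ha, Int.cast_lt_zero]

theorem IsUni.exists_family (hB : IsUni B) : ∃ e : Fin (finrank ℤ E) → E,
    (∀ i j, i ≠ j → B (e i) (e j) = 0) ∧ ∀ i, B (e i) (e i) ≠ 0 := by
  obtain ⟨e, h1, h2⟩ := exists_orthogonal_of_odd (p := 3) Int.prime_three (by norm_num) _ E B
    hB.symm (hB.ndp _) rfl
  exact ⟨e, h1, fun i h0 => h2 i (h0 ▸ dvd_zero _)⟩

/-- the index does not depend on the basis -/
theorem IsUni.sigNeg_eq (hB : IsUni B) {n : ℕ} (b : Basis (Fin n) ℤ E) :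
    sigNeg (qf (gramQ b B)) = negIdx B := by
  obtain rfl : n = finrank ℤ E := by
    rw [Module.finrank_eq_card_basis b, Fintype.card_fin]
  obtain ⟨e, h1, h2⟩ := hB.exists_family
  rw [negIdx, sigNeg_eq_card b h1 h2, sigNeg_eq_card _ h1 h2]

theorem negIdx_eq_card {n : ℕ} (hn : finrank ℤ E = n) {e : Fin n → E}
    (h : ∀ i j, i ≠ j → B (e i) (e j) = 0) (h0 : ∀ i, B (e i) (e i) ≠ 0) :
    negIdx B = (Finset.univ.filter fun i => B (e i) (e i) < 0).card := by
  subst hn
  exact sigNeg_eq_card _ h h0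

theorem IsUni.negIdx_osum {E' : Type*} [AddCommGroup E'] [Module.Free ℤ E'] [Module.Finite ℤ E']
    {B' : E' →ₗ[ℤ] E' →ₗ[ℤ] ℤ} (hB : IsUni B) (hB' : IsUni B') :
    negIdx (UL.osum B B') = negIdx B + negIdx B' := by
  obtain ⟨e, h1, h2⟩ := hB.exists_family
  obtain ⟨e', h1', h2'⟩ := hB'.exists_family
  have h3 : ∀ i j, i ≠ j → UL.osum B B' (Fin.append (fun i => (e i, (0 : E'))) (fun i => ((0 : E), e' i)) i)
      (Fin.append (fun i => (e i, (0 : E'))) (fun i => ((0 : E), e' i)) j) = 0 := by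
    intro i j hij
    induction i using Fin.addCases with
    | left i =>
      induction j using Fin.addCases with
      | left j =>
        rw [Fin.append_left, Fin.append_left, osum_apply, map_zero, add_zero]
        exact h1 i j fun h => hij (by rw [h])
      | right j =>
        rw [Fin.append_left, Fin.append_right, osum_apply, map_zero, map_zero,
          LinearMap.zero_apply, add_zero]
    | right i =>
      induction j using Fin.addCases with
      | left j =>
        rw [Fin.append_left, Fin.append_right, osum_apply, map_zero, map_zero,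
          LinearMap.zero_apply, add_zero]
      | right j =>
        rw [Fin.append_right, Fin.append_right, osum_apply, map_zero, zero_add]
        exact h1' i j fun h => hij (by rw [h])
  have h4 : ∀ i, UL.osum B B' (Fin.append (fun i => (e i, (0 : E'))) (fun i => ((0 : E), e' i)) i)
      (Fin.append (fun i => (e i, (0 : E'))) (fun i => ((0 : E), e' i)) i) ≠ 0 := by
    intro i
    induction i using Fin.addCases with
    | left i =>
      rw [Fin.append_left, osum_apply, map_zero, add_zero]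
      exact h2 i
    | right i =>
      rw [Fin.append_right, osum_apply, map_zero, zero_add]
      exact h2' i
  rw [negIdx_eq_card (Module.finrank_prod (R := ℤ) (M := E) (M' := E')) h3 h4,
    negIdx_eq_card rfl h1 h2, negIdx_eq_card rfl h1' h2', Finset.card_filter, Finset.card_filter,
    Finset.card_filter, Fin.sum_univ_add]
  simp only [Fin.append_left, Fin.append_right, osum_apply, map_zero, add_zero, zero_add]

theorem negIdx_one (ε : ℤ) (h : ε ≠ 0) : negIdx (one ε) = if ε < 0 then 1 else 0 := by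
  rw [negIdx_eq_card (n := 1) (Module.finrank_self ℤ) (e := fun _ => 1)
    (fun i j hij => absurd (Subsingleton.elim i j) hij) fun i => by
      rw [one_apply, mul_one, mul_one]
      exact h, Finset.card_filter]
  simp [one_apply]

theorem negIdx_hyp : negIdx hyp = 1 := by
  rw [negIdx_eq_card (n := 2) (by rw [Module.finrank_prod, Module.finrank_self])
    (e := ![(1, 1), (1, -1)]) (by decide) (by decide)]
  decide

end Index

section Char

variable {E : Type*} [AddCommGroup E] {B : E →ₗ[ℤ] E →ₗ[ℤ] ℤ}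

/-- `u` is a characteristic vector: `B u x ≡ B x x` modulo `2`. -/
def IsChar (B : E →ₗ[ℤ] E →ₗ[ℤ] ℤ) (u : E) : Prop := ∀ x, Even (B u x - B x x)

lemma isChar_zero (h : ∀ x, Even (B x x)) : IsChar B 0 := fun x => by
  rw [map_zero, LinearMap.zero_apply, zero_sub, even_neg]
  exact h x

lemma isChar_of_basis (hs : ∀ x y, B x y = B y x) {ι : Type*} (b : Basis ι ℤ E) {u : E}
    (h : ∀ i, Even (B u (b i) - B (b i) (b i))) : IsChar B u := by
  intro x
  have hx : x ∈ Submodule.span ℤ (Set.range b) := b.mem_span x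
  induction hx using Submodule.span_induction with
  | mem x hx =>
    obtain ⟨i, rfl⟩ := hx
    exact h i
  | zero => simp
  | add x y _ _ hx hy =>
    have h1 : B u (x + y) - B (x + y) (x + y) =
        (B u x - B x x) + (B u y - B y y) - (B x y + B x y) := by
      simp only [map_add, LinearMap.add_apply, hs y x]
      ring
    rw [h1]
    exact (hx.add hy).sub ⟨B x y, rfl⟩
  | smul c x _ hx =>
    have h1 : B u (c • x) - B (c • x) (c • x) = c * (B u x - B x x) - (c * (c - 1)) * B x x := by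
      simp only [map_smul, LinearMap.smul_apply, smul_eq_mul]
      ring
    rw [h1]
    exact (hx.mul_left c).sub ((Int.even_mul_pred_self c).mul_right _)

theorem IsUni.exists_isChar [Module.Free ℤ E] (hB : IsUni B) : ∃ u, IsChar B u := by
  let b := Module.Free.chooseBasis ℤ E
  obtain ⟨u, hu⟩ := hB.surj (b.constr ℤ fun i => B (b i) (b i))
  refine ⟨u, isChar_of_basis hB.symm b fun i => ?_⟩
  rw [hu, b.constr_basis, sub_self]
  exact Even.zero

/-- two characteristic vectors -/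
theorem IsChar.exists_eq_add [Module.Free ℤ E] (hB : IsUni B) {u u' : E} (h : IsChar B u)
    (h' : IsChar B u') : ∃ z, u' = u + (2 : ℤ) • z := by
  obtain ⟨z, hz⟩ := hB.ndp 2 (u' - u) fun y => by
    have h1 := (h' y).sub (h y)
    rw [map_sub, LinearMap.sub_apply, ← even_iff_two_dvd]
    rwa [sub_sub_sub_cancel_right] at h1
  exact ⟨z, by rw [← hz]; abel⟩

theorem IsChar.eight_dvd [Module.Free ℤ E] (hB : IsUni B) {u u' : E} (h : IsChar B u)
    (h' : IsChar B u') : (8 : ℤ) ∣ B u' u' - B u u := by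
  obtain ⟨z, rfl⟩ := h.exists_eq_add hB h'
  obtain ⟨k, hk⟩ := h z
  refine ⟨k + B z z, ?_⟩
  have h1 : B (u + (2 : ℤ) • z) (u + (2 : ℤ) • z) = B u u + 4 * B u z + 4 * B z z := by
    simp only [map_add, map_smul, LinearMap.add_apply, LinearMap.smul_apply, smul_eq_mul,
      hB.symm z u]
    ring
  rw [h1]
  linear_combination 4 * hk

/-- `I₊ ⊕ I₋ ⊕ E` -/
def pm (B : E →ₗ[ℤ] E →ₗ[ℤ] ℤ) : ((ℤ × ℤ) × E) →ₗ[ℤ] ((ℤ × ℤ) × E) →ₗ[ℤ] ℤ :=
  osum (osum (one 1) (one (-1))) B

lemma pm_apply (x y : (ℤ × ℤ) × E) :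
    pm B x y = x.1.1 * y.1.1 - x.1.2 * y.1.2 + B x.2 y.2 := by
  rw [pm, osum_apply, osum_apply, one_apply, one_apply]
  ring

theorem IsUni.pm (hB : IsUni B) : IsUni (UL.pm B) :=
  ((isUni_one (by norm_num)).osum (isUni_one (by norm_num))).osum hB

lemma pm_odd : ∃ t, Odd (pm B t t) := ⟨((1, 0), 0), by simp [pm_apply]⟩

lemma pm_pos : ∃ t, 0 < pm B t t := ⟨((1, 0), 0), by simp [pm_apply]⟩

lemma pm_neg : ∃ t, pm B t t < 0 := ⟨((0, 1), 0), by simp [pm_apply]⟩

theorem IsUni.negIdx_pm [Module.Free ℤ E] [Module.Finite ℤ E] (hB : IsUni B) :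
    negIdx (UL.pm B) = 1 + negIdx B := by
  rw [UL.pm, ((isUni_one (by norm_num)).osum (isUni_one (by norm_num))).negIdx_osum hB,
    (isUni_one (by norm_num)).negIdx_osum (isUni_one (by norm_num)), negIdx_one _ (by norm_num),
    negIdx_one _ (by norm_num)]
  norm_num

lemma IsChar.pm {u : E} (h : IsChar B u) : IsChar (UL.pm B) ((1, 1), u) := by
  rintro ⟨⟨a, c⟩, x⟩
  have h1 : UL.pm B ((1, 1), u) ((a, c), x) - UL.pm B ((a, c), x) ((a, c), x) =
      (B u x - B x x) - a * (a - 1) + c * (c - 1) := by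
    rw [pm_apply, pm_apply]
    ring
  rw [h1]
  exact ((h x).sub (Int.even_mul_pred_self a)).add (Int.even_mul_pred_self c)

/-- the standard form -/
theorem IsStd.exists_isChar {n s : ℕ} (hs : ∀ x y, B x y = B y x) {b : Basis (Fin n) ℤ E}
    (h : IsStd B b s) (hsn : s ≤ n) : ∃ u, IsChar B u ∧ B u u = n - 2 * s := by
  have h1 : ∀ j, B (∑ i, b i) (b j) = if (j : ℕ) < s then -1 else 1 := by
    intro j
    rw [map_sum, LinearMap.sum_apply, Finset.sum_eq_single j (fun i _ hij => by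
      rw [h, if_neg hij]) (fun h => absurd (Finset.mem_univ j) h), h, if_pos rfl]
  refine ⟨∑ i, b i, isChar_of_basis hs b fun i => ?_, ?_⟩
  · rw [h1, h, if_pos rfl, sub_self]
    exact Even.zero
  · rw [map_sum]
    simp only [h1]
    have h2 : ∀ i : Fin n, (if (i : ℕ) < s then (-1 : ℤ) else 1) =
        1 - 2 * (if (i : ℕ) < s then 1 else 0) := fun i => by split_ifs <;> norm_num
    simp only [h2, Finset.sum_sub_distrib, ← Finset.mul_sum, Finset.sum_boole]
    rw [card_lt hsn]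
    simp

/-- **The norm of a characteristic vector is congruent to the signature modulo `8`**
(van der Blij). -/
theorem IsUni.eight_dvd_of_isChar [Module.Free ℤ E] [Module.Finite ℤ E] (hB : IsUni B) {u : E}
    (hu : IsChar B u) : (8 : ℤ) ∣ B u u - (finrank ℤ E - 2 * negIdx B) := by
  have hr : finrank ℤ ((ℤ × ℤ) × E) = 2 + finrank ℤ E := by
    rw [Module.finrank_prod, Module.finrank_prod, Module.finrank_self]
  obtain ⟨b₀, h⟩ := hB.pm.exists_isStd pm_odd pm_pos pm_neg (Module.finBasis ℤ ((ℤ × ℤ) × E))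
  rw [← negIdx, hB.negIdx_pm] at h
  have hs : 1 + negIdx B ≤ finrank ℤ ((ℤ × ℤ) × E) := by
    obtain ⟨s, hs, h⟩ := hB.pm.equivalent_std (Module.finBasis ℤ ((ℤ × ℤ) × E))
    rw [← hB.negIdx_pm, negIdx]
    rwa [h.sigNeg_eq, sigNeg_wf, negCard_std hs]
  obtain ⟨u', hu', h1⟩ := h.exists_isChar hB.pm.symm hs
  have h2 := hu'.eight_dvd hB.pm hu.pm
  rw [h1, hr, pm_apply] at h2
  obtain ⟨k, hk⟩ := h2
  refine ⟨k, ?_⟩
  push_cast at hk
  linear_combination hk

/-- **The signature of an even unimodular lattice is divisible by `8`.** -/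
theorem IsUni.eight_dvd_of_even [Module.Free ℤ E] [Module.Finite ℤ E] (hB : IsUni B)
    (h : ∀ x, Even (B x x)) : (8 : ℤ) ∣ finrank ℤ E - 2 * negIdx B := by
  have h1 := hB.eight_dvd_of_isChar (isChar_zero h)
  rwa [map_zero, zero_sub, dvd_neg] at h1

/-- **The rank of a positive definite even unimodular lattice is divisible by `8`.** -/
theorem IsUni.eight_dvd_finrank [Module.Free ℤ E] [Module.Finite ℤ E] (hB : IsUni B)
    (h : ∀ x, Even (B x x)) (hpos : ∀ x, 0 ≤ B x x) : 8 ∣ finrank ℤ E := by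
  have h1 := hB.eight_dvd_of_even h
  have h2 : negIdx B = 0 := by
    obtain ⟨e, h3, h4⟩ := hB.exists_family
    rw [negIdx_eq_card rfl h3 h4, Finset.card_eq_zero, Finset.filter_eq_empty_iff]
    intro i _
    exact not_lt.mpr (hpos _)
  rw [h2] at h1
  simp only [Nat.cast_zero, mul_zero, sub_zero] at h1
  exact_mod_cast h1

end Char

end Fermat.Agent.Cor.UL
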