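import Fermat.Agent.Corollaries.UL.Even

/-!
# The even indefinite unimodular lattices

* `IsUni.exists_split`: an even unimodular lattice with an isotropic vector is `U ⊕ F`, `U` the
  hyperbolic plane;
* `iso_of_pm`: for even `F₁`, `F₂`, an isometry `I₊ ⊕ I₋ ⊕ F₁ ≅ I₊ ⊕ I₋ ⊕ F₂` gives
  `U ⊕ F₁ ≅ U ⊕ F₂`;
* `IsUni.iso_iff_of_even`: two even indefinite unimodular lattices are isometric iff they have the
  same rank and the same signature.
-/

set_option autoImplicit false

namespace Fermat.Agent.Cor.UL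

open Module Fermat.Agent.Cor.HM

section Iso

variable {E E' E'' : Type*} [AddCommGroup E] [AddCommGroup E'] [AddCommGroup E'']
  {B : E →ₗ[ℤ] E →ₗ[ℤ] ℤ} {B' : E' →ₗ[ℤ] E' →ₗ[ℤ] ℤ} {B'' : E'' →ₗ[ℤ] E'' →ₗ[ℤ] ℤ}

/-- `(E, B)` and `(E', B')` are isometric. -/
def Iso (B : E →ₗ[ℤ] E →ₗ[ℤ] ℤ) (B' : E' →ₗ[ℤ] E' →ₗ[ℤ] ℤ) : Prop :=
  ∃ e : E ≃ₗ[ℤ] E', ∀ x y, B' (e x) (e y) = B x y

theorem Iso.symm (h : Iso B B') : Iso B' B := by
  obtain ⟨e, he⟩ := h
  exact ⟨e.symm, fun x y => by rw [← he, e.apply_symm_apply, e.apply_symm_apply]⟩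

theorem Iso.trans (h : Iso B B') (h' : Iso B' B'') : Iso B B'' := by
  obtain ⟨e, he⟩ := h
  obtain ⟨e', he'⟩ := h'
  exact ⟨e.trans e', fun x y => by rw [LinearEquiv.trans_apply, LinearEquiv.trans_apply, he', he]⟩

theorem Iso.finrank_eq (h : Iso B B') : finrank ℤ E = finrank ℤ E' := by
  obtain ⟨e, -⟩ := h
  exact e.finrank_eq

theorem Iso.negIdx_eq [Module.Free ℤ E] [Module.Finite ℤ E] [Module.Free ℤ E'] [Module.Finite ℤ E']
    (h : Iso B B') (hB : IsUni B) : negIdx B = negIdx B' := by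
  have hr := h.finrank_eq
  obtain ⟨e, he⟩ := h
  obtain ⟨f, h1, h2⟩ := hB.exists_family
  rw [negIdx_eq_card rfl h1 h2, negIdx_eq_card (B := B') hr.symm (e := fun i => e (f i))
    (fun i j hij => by rw [he, h1 i j hij]) fun i => by rw [he]; exact h2 i]
  simp only [he]

theorem Iso.isUni (h : Iso B B') (hB : IsUni B) : IsUni B' := by
  obtain ⟨e, he⟩ := h
  have he' : ∀ x y, B' x y = B (e.symm x) (e.symm y) := fun x y => by
    rw [← he, e.apply_symm_apply, e.apply_symm_apply]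
  refine ⟨fun x y => by rw [he', he', hB.symm], fun x hx => ?_, fun f => ?_⟩
  · have h1 := hB.inj (e.symm x) fun y => by
      have h2 := hx (e y)
      rwa [he', e.symm_apply_apply] at h2
    rwa [LinearEquiv.map_eq_zero_iff] at h1
  · obtain ⟨x, hx⟩ := hB.surj (f.comp e.toLinearMap)
    refine ⟨e x, fun y => ?_⟩
    rw [he', e.symm_apply_apply, hx, LinearMap.comp_apply, LinearEquiv.coe_coe,
      e.apply_symm_apply]

end Iso

section Split

variable {E : Type*} [AddCommGroup E] {B : E →ₗ[ℤ] E →ₗ[ℤ] ℤ}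

/-- the orthogonal complement of two vectors -/
def perp2 (B : E →ₗ[ℤ] E →ₗ[ℤ] ℤ) (w z : E) : Submodule ℤ E := perp B w ⊓ perp B z

lemma mem_perp2 {w z x : E} : x ∈ perp2 B w z ↔ B w x = 0 ∧ B z x = 0 := by
  rw [perp2, Submodule.mem_inf, mem_perp, mem_perp]

/-- the projection to the complement of a hyperbolic pair -/
def proj (B : E →ₗ[ℤ] E →ₗ[ℤ] ℤ) {w z : E} (hw : B w w = 0) (hz : B z z = 0) (hwz : B w z = 1)
    (hzw : B z w = 1) : E →ₗ[ℤ] perp2 B w z :=
  LinearMap.codRestrict _ (LinearMap.id - (B z).smulRight w - (B w).smulRight z) fun x => by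
    rw [mem_perp2]
    simp [hw, hz, hwz, hzw]

lemma proj_apply {w z : E} (hw : B w w = 0) (hz : B z z = 0) (hwz : B w z = 1)
    (hzw : B z w = 1) (x : E) : (proj B hw hz hwz hzw x : E) = x - B z x • w - B w x • z := rfl

theorem IsUni.exists_split [Module.Free ℤ E] (hB : IsUni B) (heven : ∀ x, Even (B x x)) {v : E}
    (hv0 : v ≠ 0) (hv : B v v = 0) :
    ∃ N : Submodule ℤ E, IsUni (res B N) ∧ Iso (UL.osum hyp (res B N)) B := by
  obtain ⟨w, z, hw, hz, hwz⟩ : ∃ w z, B w w = 0 ∧ B z z = 0 ∧ B w z = 1 := by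
    obtain ⟨w, z, hw, hwz⟩ := hB.exists_hyperbolic hv0 hv
    obtain ⟨k, hk⟩ := heven z
    refine ⟨w, z - k • w, hw, ?_, ?_⟩
    · simp only [map_sub, map_smul, LinearMap.sub_apply, LinearMap.smul_apply, smul_eq_mul, hw,
        hwz, hB.symm z w, hk]
      ring
    · rw [map_sub, map_smul, hw, hwz, smul_zero, sub_zero]
  have hzw : B z w = 1 := by rw [hB.symm, hwz]
  have hN : ∀ x : perp2 B w z, B w x = 0 ∧ B z x = 0 := fun x => mem_perp2.mp x.2
  have hN' : ∀ x : perp2 B w z, B x w = 0 ∧ B x z = 0 := fun x => by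
    rw [hB.symm _ w, hB.symm _ z]
    exact hN x
  have hp : ∀ x : perp2 B w z, proj B hw hz hwz hzw x = x := fun x => by
    apply Subtype.ext
    rw [proj_apply, (hN x).1, (hN x).2, zero_smul, zero_smul, sub_zero, sub_zero]
  refine ⟨perp2 B w z, ⟨fun x y => hB.symm _ _, fun x hx => ?_, fun f => ?_⟩, ?_⟩
  · refine Subtype.ext (hB.inj _ fun y => ?_)
    have h1 := hx (proj B hw hz hwz hzw y)
    rw [res_apply, proj_apply, map_sub, map_sub, map_smul, map_smul, (hN' x).1, (hN' x).2,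
      smul_zero, smul_zero, sub_zero, sub_zero] at h1
    exact h1
  · obtain ⟨x, hx⟩ := hB.surj (f.comp (proj B hw hz hwz hzw))
    refine ⟨proj B hw hz hwz hzw x, fun y => ?_⟩
    have h1 := hx y
    rw [LinearMap.comp_apply, hp] at h1
    rw [← h1, res_apply, proj_apply, map_sub, map_sub, map_smul, map_smul, LinearMap.sub_apply,
      LinearMap.sub_apply, LinearMap.smul_apply, LinearMap.smul_apply, (hN y).1, (hN y).2,
      smul_zero, smul_zero, sub_zero, sub_zero]
  · let e : ((ℤ × ℤ) × perp2 B w z) ≃ₗ[ℤ] E :=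
      { toFun := fun x => x.1.1 • w + x.1.2 • z + (x.2 : E)
        map_add' := fun x y => by
          change (x.1.1 + y.1.1) • w + (x.1.2 + y.1.2) • z + ((x.2 : E) + (y.2 : E)) = _
          rw [add_smul, add_smul]
          abel
        map_smul' := fun c x => by
          change (c * x.1.1) • w + (c * x.1.2) • z + c • (x.2 : E) = _
          rw [mul_smul, mul_smul, RingHom.id_apply, smul_add, smul_add]
        invFun := fun y => ((B z y, B w y), proj B hw hz hwz hzw y)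
        left_inv := fun x => by
          obtain ⟨⟨a, c⟩, x⟩ := x
          have h1 : B z (a • w + c • z + (x : E)) = a := by
            rw [map_add, map_add, map_smul, map_smul, hzw, hz, (hN x).2, smul_eq_mul,
              smul_eq_mul]
            ring
          have h2 : B w (a • w + c • z + (x : E)) = c := by
            rw [map_add, map_add, map_smul, map_smul, hw, hwz, (hN x).1, smul_eq_mul,
              smul_eq_mul]
            ring
          refine Prod.ext (Prod.ext h1 h2) (Subtype.ext ?_)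
          change a • w + c • z + (x : E) - B z (a • w + c • z + (x : E)) • w -
            B w (a • w + c • z + (x : E)) • z = x
          rw [h1, h2]
          abel
        right_inv := fun y => by
          change B z y • w + B w y • z + (y - B z y • w - B w y • z) = y
          abel }
    refine ⟨e, ?_⟩
    rintro ⟨⟨a, c⟩, x⟩ ⟨⟨a', c'⟩, x'⟩
    change B (a • w + c • z + (x : E)) (a' • w + c' • z + (x' : E)) = _
    rw [osum_apply, hyp_apply, res_apply]
    simp only [map_add, map_smul, LinearMap.add_apply, LinearMap.smul_apply, smul_eq_mul, hw, hz,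
      hwz, hzw, (hN x').1, (hN x').2, (hN' x).1, (hN' x).2]
    ring

end Split

section Cancel

/-- `U ⊕ F → I₊ ⊕ I₋ ⊕ F`, multiplying the form by `4` -/
def jm (F : Type*) [AddCommGroup F] : ((ℤ × ℤ) × F) →ₗ[ℤ] ((ℤ × ℤ) × F) where
  toFun x := ((x.1.1 + 2 * x.1.2, x.1.1 - 2 * x.1.2), (2 : ℤ) • x.2)
  map_add' x y := by
    refine Prod.ext (Prod.ext ?_ ?_) ?_
    · simp only [Prod.fst_add, Prod.snd_add]; ring
    · simp only [Prod.fst_add, Prod.snd_add]; ring
    · simp only [Prod.snd_add, smul_add]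
  map_smul' c x := by
    refine Prod.ext (Prod.ext ?_ ?_) ?_
    · simp only [Prod.smul_fst, Prod.smul_snd, smul_eq_mul, RingHom.id_apply]; ring
    · simp only [Prod.smul_fst, Prod.smul_snd, smul_eq_mul, RingHom.id_apply]; ring
    · simp only [Prod.smul_snd, RingHom.id_apply]; rw [smul_comm]

variable {F F' : Type*} [AddCommGroup F] [AddCommGroup F']
  {B : F →ₗ[ℤ] F →ₗ[ℤ] ℤ} {B' : F' →ₗ[ℤ] F' →ₗ[ℤ] ℤ}

lemma jm_apply (x : (ℤ × ℤ) × F) :
    jm F x = ((x.1.1 + 2 * x.1.2, x.1.1 - 2 * x.1.2), (2 : ℤ) • x.2) := rfl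

lemma pm_jm (x y : (ℤ × ℤ) × F) : pm B (jm F x) (jm F y) = 4 * osum hyp B x y := by
  rw [pm_apply, osum_apply, hyp_apply, jm_apply, jm_apply]
  simp only [map_smul, LinearMap.smul_apply, smul_eq_mul]
  ring

lemma jm_injective [Module.Free ℤ F] : Function.Injective (jm F) := by
  rw [injective_iff_map_eq_zero]
  rintro ⟨⟨a, c⟩, x⟩ h
  rw [jm_apply] at h
  have h1 := congrArg (fun y : (ℤ × ℤ) × F => y.1.1) h
  have h2 := congrArg (fun y : (ℤ × ℤ) × F => y.1.2) h
  have h3 := congrArg (fun y : (ℤ × ℤ) × F => y.2) h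
  simp only [Prod.fst_zero, Prod.snd_zero] at h1 h2 h3
  have h4 : x = 0 := (smul_eq_zero.mp h3).resolve_left two_ne_zero
  refine Prod.ext (Prod.ext ?_ ?_) h4
  · change a = 0
    omega
  · change c = 0
    omega

/-- the characteristic vector `(1, 1, 0)` -/
def u0 (F : Type*) [AddCommGroup F] : (ℤ × ℤ) × F := ((1, 1), 0)

lemma mem_range_jm (heven : ∀ x, Even (B x x)) (w : (ℤ × ℤ) × F) :
    w ∈ LinearMap.range (jm F) ↔ ∃ (k : ℤ) (z : (ℤ × ℤ) × F), Even (pm B z z) ∧
      w = k • u0 F + (2 : ℤ) • z := by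
  constructor
  · rintro ⟨⟨⟨a, c⟩, x⟩, rfl⟩
    refine ⟨a, ((c, -c), x), ?_, ?_⟩
    · rw [pm_apply]
      have h1 : c * c - -c * -c + B x x = B x x := by ring
      change Even (c * c - -c * -c + B x x)
      rw [h1]
      exact heven x
    · rw [jm_apply, u0]
      refine Prod.ext (Prod.ext ?_ ?_) ?_
      · change a + 2 * c = a * 1 + 2 * c
        ring
      · change a - 2 * c = a * 1 + 2 * -c
        ring
      · change (2 : ℤ) • x = a • 0 + (2 : ℤ) • x
        rw [smul_zero, zero_add]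
  · rintro ⟨k, ⟨⟨c, d⟩, x⟩, hz, rfl⟩
    rw [pm_apply] at hz
    change Even (c * c - d * d + B x x) at hz
    have h1 : Even (c * c - d * d) := by
      have h2 := hz.sub (heven x)
      rwa [add_sub_cancel_right] at h2
    have h3 : Even (c - d) := by
      have h2 : c * c - d * d = (c - d) * (c + d) := by ring
      rw [h2, Int.even_mul] at h1
      rcases h1 with h1 | h1
      · exact h1
      · rw [Int.even_sub]
        rwa [Int.even_add] at h1
    obtain ⟨m, hm⟩ := h3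
    refine ⟨((k + c + d, m), x), ?_⟩
    rw [jm_apply, u0]
    refine Prod.ext (Prod.ext ?_ ?_) ?_
    · change k + c + d + 2 * m = k * 1 + 2 * c
      linear_combination -hm
    · change k + c + d - 2 * m = k * 1 + 2 * d
      linear_combination hm
    · change (2 : ℤ) • x = k • 0 + (2 : ℤ) • x
      rw [smul_zero, zero_add]

lemma exists_lift [Module.Free ℤ F'] (heven : ∀ x, Even (B x x)) (heven' : ∀ x, Even (B' x x))
    (hs' : ∀ x y, B' x y = B' y x)
    (φ : ((ℤ × ℤ) × F) ≃ₗ[ℤ] ((ℤ × ℤ) × F')) (hφ : ∀ x y, pm B' (φ x) (φ y) = pm B x y)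
    {z : (ℤ × ℤ) × F'} (hz : φ (u0 F) = u0 F' + (2 : ℤ) • z) (hzz : Even (pm B' z z)) :
    ∃ ψ : ((ℤ × ℤ) × F) →ₗ[ℤ] ((ℤ × ℤ) × F'), ∀ x, jm F' (ψ x) = φ (jm F x) := by
  have h1 : ∀ x, φ (jm F x) ∈ LinearMap.range (jm F') := by
    intro x
    obtain ⟨k, y, hy, hx⟩ := (mem_range_jm heven (jm F x)).mp ⟨x, rfl⟩
    rw [mem_range_jm heven']
    refine ⟨k, k • z + φ y, ?_, ?_⟩
    · have h2 : pm B' (k • z + φ y) (k • z + φ y) =
          k * k * pm B' z z + (k * pm B' z (φ y) + k * pm B' z (φ y)) + pm B y y := by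
        have h3 : pm B' (φ y) z = pm B' z (φ y) := by
          rw [pm_apply, pm_apply, hs']
          ring
        simp only [map_add, map_smul, LinearMap.add_apply, LinearMap.smul_apply, smul_eq_mul, h3,
          hφ]
        ring
      rw [h2]
      exact ((hzz.mul_left _).add ⟨_, rfl⟩).add hy
    · rw [hx, map_add, map_smul, map_smul, hz, smul_add, smul_add, smul_comm k (2 : ℤ) z]
      abel
  refine ⟨(LinearEquiv.ofInjective (jm F') jm_injective).symm.toLinearMap.comp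
    (LinearMap.codRestrict _ (φ.toLinearMap.comp (jm F)) h1), fun x => ?_⟩
  have h2 := congrArg Subtype.val ((LinearEquiv.ofInjective (jm F') jm_injective).apply_symm_apply
    (LinearMap.codRestrict _ (φ.toLinearMap.comp (jm F)) h1 x))
  exact h2

/-- **The cancellation of `I₊ ⊕ I₋` against `U`.** -/
theorem iso_of_pm [Module.Free ℤ F] [Module.Free ℤ F'] (hB : IsUni B) (hB' : IsUni B')
    (heven : ∀ x, Even (B x x)) (heven' : ∀ x, Even (B' x x)) (h : Iso (pm B) (pm B')) :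
    Iso (osum hyp B) (osum hyp B') := by
  obtain ⟨φ, hφ, z, hz, hzz⟩ : ∃ φ : ((ℤ × ℤ) × F) ≃ₗ[ℤ] ((ℤ × ℤ) × F'),
      (∀ x y, pm B' (φ x) (φ y) = pm B x y) ∧ ∃ z : (ℤ × ℤ) × F',
        φ (u0 F) = u0 F' + (2 : ℤ) • z ∧ Even (pm B' z z) := by
    obtain ⟨φ, hφ⟩ := h
    have h1 : IsChar (pm B') (φ (u0 F)) := by
      intro x
      have h2 := (isChar_zero heven).pm (φ.symm x)
      rw [← hφ, ← hφ, φ.apply_symm_apply] at h2
      exact h2
    obtain ⟨z, hz⟩ := ((isChar_zero heven').pm).exists_eq_add hB'.pm h1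
    by_cases hzz : Even (pm B' z z)
    · exact ⟨φ, hφ, z, hz, hzz⟩
    · let σ : ((ℤ × ℤ) × F') ≃ₗ[ℤ] ((ℤ × ℤ) × F') :=
        LinearEquiv.prodCongr (LinearEquiv.prodCongr (LinearEquiv.refl ℤ ℤ) (LinearEquiv.neg ℤ))
          (LinearEquiv.refl ℤ F')
      have hσ : ∀ x, σ x = ((x.1.1, -x.1.2), x.2) := fun x => rfl
      have hσ' : ∀ x y, pm B' (σ x) (σ y) = pm B' x y := fun x y => by
        rw [hσ, hσ, pm_apply, pm_apply]
        ring
      refine ⟨φ.trans σ, fun x y => ?_, ((z.1.1, -z.1.2 - 1), z.2), ?_, ?_⟩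
      · rw [LinearEquiv.trans_apply, LinearEquiv.trans_apply, hσ', hφ]
      · rw [LinearEquiv.trans_apply, hz, hσ, u0]
        refine Prod.ext (Prod.ext ?_ ?_) ?_
        · change (1 : ℤ) + 2 * z.1.1 = 1 + 2 * z.1.1
          rfl
        · change -((1 : ℤ) + 2 * z.1.2) = 1 + 2 * (-z.1.2 - 1)
          ring
        · rfl
      · rw [Int.not_even_iff_odd] at hzz
        obtain ⟨m, hm⟩ := hzz
        rw [pm_apply] at hm ⊢
        refine ⟨m - z.1.2, ?_⟩
        change z.1.1 * z.1.1 - (-z.1.2 - 1) * (-z.1.2 - 1) + B' z.2 z.2 = _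
        linear_combination hm
  obtain ⟨ψ, hψ⟩ := exists_lift heven heven' hB'.symm φ hφ hz hzz
  have hz' : φ.symm (u0 F') = u0 F + (2 : ℤ) • (-φ.symm z) := by
    have h1 : u0 F' = φ (u0 F) - (2 : ℤ) • z := by rw [hz]; abel
    rw [h1, map_sub, map_smul, φ.symm_apply_apply, smul_neg, sub_eq_add_neg]
  have hφ' : ∀ x y, pm B (φ.symm x) (φ.symm y) = pm B' x y := fun x y => by
    rw [← hφ, φ.apply_symm_apply, φ.apply_symm_apply]
  obtain ⟨ψ', hψ'⟩ := exists_lift heven' heven hB.symm φ.symm hφ' hz' (by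
    rw [map_neg, map_neg, LinearMap.neg_apply, neg_neg, hφ']
    exact hzz)
  refine ⟨LinearEquiv.ofLinearMap ψ ψ' (LinearMap.ext fun x => jm_injective ?_)
    (LinearMap.ext fun x => jm_injective ?_), fun x y => ?_⟩
  · rw [LinearMap.comp_apply, hψ, hψ', φ.apply_symm_apply, LinearMap.id_apply]
  · rw [LinearMap.comp_apply, hψ', hψ, φ.symm_apply_apply, LinearMap.id_apply]
  · rw [LinearEquiv.coe_ofLinearMap]
    have h1 : (4 : ℤ) * osum hyp B' (ψ x) (ψ y) = 4 * osum hyp B x y := by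
      rw [← pm_jm, ← pm_jm, hψ, hψ, hφ]
    omega

end Cancel

section Main

variable {E E' : Type*} [AddCommGroup E] [AddCommGroup E'] [Module.Free ℤ E] [Module.Finite ℤ E]
  [Module.Free ℤ E'] [Module.Finite ℤ E'] {B : E →ₗ[ℤ] E →ₗ[ℤ] ℤ} {B' : E' →ₗ[ℤ] E' →ₗ[ℤ] ℤ}

/-- **Odd indefinite unimodular lattices are classified by the rank and the signature.** -/
theorem IsUni.iso_iff_of_odd (hB : IsUni B) (hodd : ∃ t, Odd (B t t)) (hpos : ∃ x, 0 < B x x)
    (hneg : ∃ y, B y y < 0) (hB' : IsUni B') (hodd' : ∃ t, Odd (B' t t)) (hpos' : ∃ x, 0 < B' x x)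
    (hneg' : ∃ y, B' y y < 0) :
    Iso B B' ↔ finrank ℤ E = finrank ℤ E' ∧ negIdx B = negIdx B' := by
  constructor
  · intro h
    exact ⟨h.finrank_eq, h.negIdx_eq hB⟩
  · rintro ⟨h1, h2⟩
    have h3 := hB.exists_equiv_iff hodd hpos hneg hB' hodd' hpos' hneg' (Module.finBasis ℤ E)
      ((Module.finBasis ℤ E').reindex (finCongr h1.symm))
    refine h3.mpr ?_
    rw [hB.sigNeg_eq, hB'.sigNeg_eq, h2]

/-- **Even indefinite unimodular lattices are classified by the rank and the signature.** -/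
theorem IsUni.iso_iff_of_even (hB : IsUni B) (heven : ∀ x, Even (B x x)) (hpos : ∃ x, 0 < B x x)
    (hneg : ∃ y, B y y < 0) (hB' : IsUni B') (heven' : ∀ x, Even (B' x x))
    (hpos' : ∃ x, 0 < B' x x) (hneg' : ∃ y, B' y y < 0) :
    Iso B B' ↔ finrank ℤ E = finrank ℤ E' ∧ negIdx B = negIdx B' := by
  constructor
  · intro h
    exact ⟨h.finrank_eq, h.negIdx_eq hB⟩
  · rintro ⟨h1, h2⟩
    obtain ⟨v, hv0, hv⟩ := hB.exists_isotropic hpos hneg
    obtain ⟨v', hv0', hv'⟩ := hB'.exists_isotropic hpos' hneg'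
    obtain ⟨N, hN, hi⟩ := hB.exists_split heven hv0 hv
    obtain ⟨N', hN', hi'⟩ := hB'.exists_split heven' hv0' hv'
    have hr : finrank ℤ N = finrank ℤ N' := by
      have h3 := hi.finrank_eq
      have h4 := hi'.finrank_eq
      rw [Module.finrank_prod] at h3 h4
      omega
    have hn : negIdx (res B N) = negIdx (res B' N') := by
      have h3 := hi.negIdx_eq (isUni_hyp.osum hN)
      have h4 := hi'.negIdx_eq (isUni_hyp.osum hN')
      rw [isUni_hyp.negIdx_osum hN] at h3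
      rw [isUni_hyp.negIdx_osum hN'] at h4
      omega
    have h5 : Iso (UL.pm (res B N)) (UL.pm (res B' N')) := by
      rw [hN.pm.iso_iff_of_odd pm_odd pm_pos pm_neg hN'.pm pm_odd pm_pos pm_neg,
        hN.negIdx_pm, hN'.negIdx_pm, hn]
      exact ⟨by simp only [Module.finrank_prod, hr], rfl⟩
    exact (hi.symm.trans (iso_of_pm hN hN' (fun x => heven x) (fun x => heven' x) h5)).trans hi'

end Main

end Fermat.Agent.Cor.UL
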