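import Fermat.Agent.Corollaries.UL.E8

/-!
# Hermite's inequality; the definite unimodular lattices of rank `≤ 5`

* `hermite`: a positive definite integral symmetric form `B` of rank `n > 0` and determinant `d` has
  `x ≠ 0` with `B x x ^ n ≤ (4 / 3) ^ (n (n - 1) / 2) d`;
* `IsUni.exists_orthonormal`: a positive definite unimodular lattice of rank `≤ 5` has an
  orthonormal basis.
-/

set_option autoImplicit false

namespace Fermat.Agent.Cor.UL

open Module Matrix

section Det

/-- pivotal condensation -/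
theorem det_pivot {k : ℕ} (G : Matrix (Fin (k + 1)) (Fin (k + 1)) ℤ) :
    G 0 0 * (Matrix.of fun i j : Fin k => G 0 0 * G i.succ j.succ - G i.succ 0 * G 0 j.succ).det =
      G 0 0 ^ k * G.det := by
  set v : Fin (k + 1) → ℤ := Fin.cons 1 fun _ => G 0 0 with hv
  set c : Fin (k + 1) → ℤ := Fin.cons 0 fun i => -G i.succ 0 with hc
  set A : Matrix (Fin (k + 1)) (Fin (k + 1)) ℤ :=
    Matrix.of fun i j => v i * G i j + c i * (v 0 * G 0 j) with hA
  have h1 : A.det = (Matrix.of fun i j => v i * G i j).det :=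
    Matrix.det_eq_of_forall_row_eq_smul_add_const c 0 rfl fun i j => rfl
  rw [Matrix.det_mul_column, Fin.prod_univ_succ] at h1
  simp only [hv, Fin.cons_zero, Fin.cons_succ, Finset.prod_const, Finset.card_univ,
    Fintype.card_fin, one_mul] at h1
  rw [← h1, Matrix.det_succ_column_zero, Fin.sum_univ_succ, Finset.sum_eq_zero, add_zero]
  · have h2 : A.submatrix (Fin.succAbove 0) Fin.succ =
        Matrix.of fun i j : Fin k => G 0 0 * G i.succ j.succ - G i.succ 0 * G 0 j.succ := by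
      ext i j
      simp only [hA, hv, hc, Matrix.submatrix_apply, Matrix.of_apply, Fin.succAbove_zero,
        Fin.cons_succ, Fin.cons_zero]
      ring
    have h3 : A 0 0 = G 0 0 := by
      simp only [hA, hv, hc, Matrix.of_apply, Fin.cons_zero]
      ring
    rw [h2, h3]
    simp
  · intro i _
    have h3 : A i.succ 0 = 0 := by
      simp only [hA, hv, hc, Matrix.of_apply, Fin.cons_zero, Fin.cons_succ]
      ring
    rw [h3]
    ring

variable {E : Type*} [AddCommGroup E]

lemma gram_apply {n : ℕ} (b : Basis (Fin n) ℤ E) (B : E →ₗ[ℤ] E →ₗ[ℤ] ℤ) (i j : Fin n) :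
    gram b B i j = B (b i) (b j) := rfl

/-- the determinant does not depend on the basis -/
theorem det_gram_eq {n : ℕ} (b b₁ : Basis (Fin n) ℤ E) (B : E →ₗ[ℤ] E →ₗ[ℤ] ℤ) :
    (gram b₁ B).det = (gram b B).det := by
  have h1 : fam b b₁ * gram b B * (fam b b₁)ᵀ = gram b₁ B := fam_mul b B b₁ b₁
  have h2 : (fam b b₁).det = 1 ∨ (fam b b₁).det = -1 := by
    have h3 : (fam b b₁)ᵀ = b.toMatrix b₁ := by
      ext i j
      rfl
    rw [← Matrix.det_transpose, h3]
    exact Int.isUnit_iff.mp (Matrix.isUnit_det_of_right_inverse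
      (b.toMatrix_mul_toMatrix_flip b₁))
  rw [← h1, Matrix.det_mul, Matrix.det_mul, Matrix.det_transpose]
  rcases h2 with h | h <;> rw [h] <;> ring

end Det

section Min

variable {E : Type*} [AddCommGroup E] {B : E →ₗ[ℤ] E →ₗ[ℤ] ℤ}

/-- `B` is positive definite. -/
def PosD (B : E →ₗ[ℤ] E →ₗ[ℤ] ℤ) : Prop := ∀ x, x ≠ 0 → 0 < B x x

theorem PosD.exists_min (hpos : PosD B) (h : ∃ x : E, x ≠ 0) :
    ∃ x, x ≠ 0 ∧ ∀ y, y ≠ 0 → B x x ≤ B y y := by
  classical
  have hP : ∃ k : ℕ, ∃ x, x ≠ 0 ∧ B x x = k := by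
    obtain ⟨x, hx⟩ := h
    exact ⟨(B x x).toNat, x, hx, (Int.toNat_of_nonneg (hpos x hx).le).symm⟩
  obtain ⟨x, hx, hk⟩ := Nat.find_spec hP
  refine ⟨x, hx, fun y hy => ?_⟩
  have h1 : Nat.find hP ≤ (B y y).toNat :=
    Nat.find_min' hP ⟨y, hy, (Int.toNat_of_nonneg (hpos y hy).le).symm⟩
  rw [hk]
  have h2 := Int.toNat_of_nonneg (hpos y hy).le
  omega

/-- a basis with a minimal vector -/
theorem PosD.exists_basis (hpos : PosD B) {n : ℕ} (b : Basis (Fin (n + 1)) ℤ E) :
    ∃ b₁ : Basis (Fin (n + 1)) ℤ E, ∀ y, y ≠ 0 → B (b₁ 0) (b₁ 0) ≤ B y y := by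
  obtain ⟨x, hx, hmin⟩ := hpos.exists_min ⟨b 0, b.ne_zero 0⟩
  obtain ⟨m, snf⟩ := (Submodule.span ℤ {x}).smithNormalForm b
  have := Module.Free.of_basis b
  have hm : m = 1 := by
    have h1 := Module.finrank_eq_card_basis snf.bN
    rw [Fintype.card_fin] at h1
    rw [← h1, ← (LinearEquiv.toSpanNonzeroSingleton ℤ E x hx).finrank_eq, Module.finrank_self]
  subst hm
  have hx1 : ∃ c : ℤ, x = c • snf.bM (snf.f 0) := by
    have h1 := snf.bN.sum_repr ⟨x, Submodule.mem_span_singleton_self x⟩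
    rw [Fin.sum_univ_one] at h1
    have h2 := congrArg Subtype.val h1
    refine ⟨snf.bN.repr ⟨x, Submodule.mem_span_singleton_self x⟩ 0 * snf.a 0, ?_⟩
    rw [mul_smul, ← snf.snf 0]
    exact h2.symm
  obtain ⟨c, hc⟩ := hx1
  have hle : B (snf.bM (snf.f 0)) (snf.bM (snf.f 0)) ≤ B x x := by
    have hc0 : c ≠ 0 := by
      rintro rfl
      rw [zero_smul] at hc
      exact hx hc
    have h0 : ∀ y : E, x = c • y → B x x = c ^ 2 * B y y := fun y hy => by
      rw [hy, map_smul, map_smul, LinearMap.smul_apply, smul_eq_mul, smul_eq_mul]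
      ring
    have h1 := h0 _ hc
    have h2 : 1 ≤ c ^ 2 := by
      have := sq_pos_of_ne_zero hc0
      omega
    have h3 := hpos _ (snf.bM.ne_zero (snf.f 0))
    rw [h1]
    nlinarith
  refine ⟨snf.bM.reindex (Equiv.swap (snf.f 0) 0), fun y hy => ?_⟩
  rw [Basis.reindex_apply, Equiv.symm_swap, Equiv.swap_apply_right]
  exact hle.trans (hmin y hy)

end Min

section Hermite

/-- the exponent `n (n - 1) / 2` -/
def ex (n : ℕ) : ℕ := ∑ i ∈ Finset.range n, i

lemma ex_succ (n : ℕ) : ex (n + 1) = ex n + n := Finset.sum_range_succ _ _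

/-- **Hermite's inequality.** -/
theorem hermite_aux (n : ℕ) : ∀ (B : (Fin (n + 1) → ℤ) →ₗ[ℤ] (Fin (n + 1) → ℤ) →ₗ[ℤ] ℤ),
    (∀ x y, B x y = B y x) → PosD B → ∃ x, x ≠ 0 ∧
      3 ^ ex (n + 1) * B x x ^ (n + 1) ≤
        4 ^ ex (n + 1) * (gram (Pi.basisFun ℤ (Fin (n + 1))) B).det := by
  induction n with
  | zero =>
    intro B hs hpos
    refine ⟨Pi.basisFun ℤ (Fin 1) 0, (Pi.basisFun ℤ (Fin 1)).ne_zero 0, ?_⟩
    have h1 : ex (0 + 1) = 0 := rfl
    rw [h1, pow_zero, pow_zero, one_mul, one_mul]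
    change _ ^ 1 ≤ _
    rw [pow_one]
    exact (Matrix.det_fin_one (gram (Pi.basisFun ℤ (Fin 1)) B)).ge
  | succ n ih =>
    intro B hs hpos
    obtain ⟨b₁, hmin⟩ := hpos.exists_basis (Pi.basisFun ℤ (Fin (n + 2)))
    set x := b₁ 0 with hx
    set m := B x x with hm
    have hx0 : x ≠ 0 := b₁.ne_zero 0
    have hm0 : 0 < m := hpos x hx0
    let ι : (Fin (n + 1) → ℤ) →ₗ[ℤ] (Fin (n + 2) → ℤ) :=
      Fintype.linearCombination ℤ fun i : Fin (n + 1) => b₁ i.succ
    have hι : ∀ u, ι u = ∑ i, u i • b₁ i.succ := fun u => Fintype.linearCombination_apply _ _ _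
    have hind : ∀ (c : ℤ) u, c • x + ι u = 0 → u = 0 := by
      intro c u h
      rw [hι] at h
      have h1 : ∑ i, (Fin.cons c u : Fin (n + 2) → ℤ) i • b₁ i = 0 := by
        rw [Fin.sum_univ_succ]
        simpa using h
      have h2 := Fintype.linearIndependent_iff.mp b₁.linearIndependent _ h1
      ext i
      have h3 := h2 i.succ
      rwa [Fin.cons_succ] at h3
    let C : (Fin (n + 1) → ℤ) →ₗ[ℤ] (Fin (n + 1) → ℤ) →ₗ[ℤ] ℤ :=
      m • B.compl₁₂ ι ι - (LinearMap.mul ℤ ℤ).compl₁₂ ((B x).comp ι) ((B x).comp ι)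
    have hC : ∀ u w, C u w = m * B (ι u) (ι w) - B x (ι u) * B x (ι w) := fun u w => rfl
    have hCs : ∀ u w, C u w = C w u := fun u w => by
      rw [hC, hC, hs (ι u) (ι w)]
      ring
    have hCpos : PosD C := by
      intro u hu
      have h1 : m • ι u - B x (ι u) • x ≠ 0 := by
        intro h
        apply hu
        have h2 := hind (-B x (ι u)) (m • u) (by
          rw [map_smul, neg_smul, neg_add_eq_sub]
          exact h)
        exact (smul_eq_zero.mp h2).resolve_left hm0.ne'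
      have h2 := hpos _ h1
      have h3 : B (m • ι u - B x (ι u) • x) (m • ι u - B x (ι u) • x) = m * C u u := by
        rw [hC]
        simp only [map_sub, map_smul, LinearMap.sub_apply, LinearMap.smul_apply, smul_eq_mul,
          hs (ι u) x, ← hm]
        ring
      rw [h3] at h2
      exact (mul_pos_iff_of_pos_left hm0).mp h2
    obtain ⟨u, hu, hu1⟩ := ih C hCs hCpos
    -- the determinant
    have hdet : (gram (Pi.basisFun ℤ (Fin (n + 1))) C).det =
        m ^ n * (gram (Pi.basisFun ℤ (Fin (n + 2))) B).det := by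
      have h1 := det_pivot (gram b₁ B)
      have h2 : (Matrix.of fun i j : Fin (n + 1) => gram b₁ B 0 0 * gram b₁ B i.succ j.succ -
          gram b₁ B i.succ 0 * gram b₁ B 0 j.succ) = gram (Pi.basisFun ℤ (Fin (n + 1))) C := by
        ext i j
        have h3 : ∀ i : Fin (n + 1), ι (Pi.basisFun ℤ (Fin (n + 1)) i) = b₁ i.succ := fun i => by
          rw [hι, Pi.basisFun_apply]
          simp [Pi.single_apply]
        rw [Matrix.of_apply, gram_apply, gram_apply, gram_apply, gram_apply, gram_apply, hC, h3,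
          h3, hs (b₁ i.succ) (b₁ 0)]
      rw [h2, det_gram_eq (Pi.basisFun ℤ (Fin (n + 2))) b₁] at h1
      change m * _ = m ^ (n + 1) * _ at h1
      rw [pow_succ', mul_assoc] at h1
      exact mul_left_cancel₀ hm0.ne' h1
    -- the lift
    set c := B x (ι u) with hc
    set r := (2 * c + m) / (2 * m) with hr
    set y := ι u - r • x with hy
    have hy0 : y ≠ 0 := by
      intro h
      apply hu
      refine hind (-r) u ?_
      rw [neg_smul, neg_add_eq_sub]
      exact h
    have hxy : B x y = c - r * m := by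
      rw [hy, map_sub, map_smul, smul_eq_mul]
    have hyy : C u u = m * B y y - (c - r * m) ^ 2 := by
      rw [hC, hy]
      simp only [map_sub, map_smul, LinearMap.sub_apply, LinearMap.smul_apply, smul_eq_mul,
        hs (ι u) x, ← hm, ← hc]
      ring
    have hb1 : 2 * m * r ≤ 2 * c + m := Int.mul_ediv_self_le (by omega)
    have hb2 : 2 * c + m < 2 * m * r + 2 * m := by
      have := Int.lt_mul_ediv_self_add (x := 2 * c + m) (k := 2 * m) (by omega)
      exact this
    have hsq : (2 * (c - r * m)) ^ 2 ≤ m ^ 2 := by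
      apply sq_le_sq'
      · linarith
      · linarith
    have h3C : 3 * m ^ 2 ≤ 4 * C u u := by
      have h1 := hmin y hy0
      rw [hyy]
      nlinarith
    refine ⟨x, hx0, ?_⟩
    have h4 : (3 * m ^ 2) ^ (n + 1) ≤ (4 * C u u) ^ (n + 1) :=
      pow_le_pow_left₀ (by positivity) h3C _
    have h5 : m ^ n * (3 ^ ex (n + 1 + 1) * m ^ (n + 1 + 1)) ≤
        m ^ n * (4 ^ ex (n + 1 + 1) * (gram (Pi.basisFun ℤ (Fin (n + 2))) B).det) := by
      calc m ^ n * (3 ^ ex (n + 1 + 1) * m ^ (n + 1 + 1))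
          = 3 ^ ex (n + 1) * (3 * m ^ 2) ^ (n + 1) := by rw [ex_succ (n + 1)]; ring
        _ ≤ 3 ^ ex (n + 1) * (4 * C u u) ^ (n + 1) :=
            mul_le_mul_of_nonneg_left h4 (by positivity)
        _ = 4 ^ (n + 1) * (3 ^ ex (n + 1) * C u u ^ (n + 1)) := by ring
        _ ≤ 4 ^ (n + 1) * (4 ^ ex (n + 1) * (gram (Pi.basisFun ℤ (Fin (n + 1))) C).det) :=
            mul_le_mul_of_nonneg_left hu1 (by positivity)
        _ = m ^ n * (4 ^ ex (n + 1 + 1) * (gram (Pi.basisFun ℤ (Fin (n + 2))) B).det) := by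
            rw [hdet, ex_succ (n + 1)]; ring
    exact le_of_mul_le_mul_left h5 (by positivity)

/-- **Hermite's inequality**: a positive definite integral form `B` of rank `n > 0` has `x ≠ 0` with
`B x x ^ n ≤ (4 / 3) ^ (n (n - 1) / 2) det B`. -/
theorem hermite {E : Type*} [AddCommGroup E] {B : E →ₗ[ℤ] E →ₗ[ℤ] ℤ} (hs : ∀ x y, B x y = B y x)
    (hpos : PosD B) {n : ℕ} (hn : 0 < n) (b : Basis (Fin n) ℤ E) : ∃ x, x ≠ 0 ∧
      3 ^ (n * (n - 1) / 2) * B x x ^ n ≤ 4 ^ (n * (n - 1) / 2) * (gram b B).det := by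
  obtain ⟨k, rfl⟩ : ∃ k, n = k + 1 := ⟨n - 1, by omega⟩
  rw [← Finset.sum_range_id]
  let e := b.equivFun.symm
  obtain ⟨x, hx, h⟩ := hermite_aux k (B.compl₁₂ e.toLinearMap e.toLinearMap)
    (fun x y => hs _ _) fun x hx => hpos _ fun h => hx ((LinearEquiv.map_eq_zero_iff e).mp h)
  have h1 : gram (Pi.basisFun ℤ (Fin (k + 1))) (B.compl₁₂ e.toLinearMap e.toLinearMap) =
      gram b B := by
    have h2 : ∀ i, e (Pi.basisFun ℤ (Fin (k + 1)) i) = b i := fun i => by
      change b.equivFun.symm (Pi.basisFun ℤ (Fin (k + 1)) i) = b i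
      rw [Pi.basisFun_apply, b.equivFun_symm_apply]
      simp [Pi.single_apply]
    ext i j
    rw [gram_apply, gram_apply, LinearMap.compl₁₂_apply, LinearEquiv.coe_coe, h2, h2]
  rw [h1] at h
  exact ⟨e x, fun h => hx ((LinearEquiv.map_eq_zero_iff e).mp h), h⟩

end Hermite

section Definite

/-- a positive definite unimodular lattice of rank `1, …, 5` has a vector of norm `1` -/
theorem IsUni.exists_norm_one {E : Type*} [AddCommGroup E] [Module.Free ℤ E] [Module.Finite ℤ E]
    {B : E →ₗ[ℤ] E →ₗ[ℤ] ℤ} (hB : IsUni B) (hpos : PosD B) (h0 : 0 < finrank ℤ E)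
    (h5 : finrank ℤ E ≤ 5) : ∃ x, B x x = 1 := by
  obtain ⟨x, hx, h⟩ := hermite hB.symm hpos h0 (Module.finBasis ℤ E)
  refine ⟨x, ?_⟩
  have h1 : (gram (Module.finBasis ℤ E) B).det ≤ 1 := by
    rcases det_gram (Module.finBasis ℤ E) hB with h | h <;> rw [h]
    norm_num
  have h2 := hpos x hx
  by_contra hne
  have h3 : 2 ≤ B x x := by omega
  have h4 : (3 : ℤ) ^ (finrank ℤ E * (finrank ℤ E - 1) / 2) * 2 ^ finrank ℤ E ≤
      4 ^ (finrank ℤ E * (finrank ℤ E - 1) / 2) := by
    calc (3 : ℤ) ^ (finrank ℤ E * (finrank ℤ E - 1) / 2) * 2 ^ finrank ℤ E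
        ≤ 3 ^ (finrank ℤ E * (finrank ℤ E - 1) / 2) * B x x ^ finrank ℤ E :=
          mul_le_mul_of_nonneg_left (pow_le_pow_left₀ (by norm_num) h3 _) (by positivity)
      _ ≤ 4 ^ (finrank ℤ E * (finrank ℤ E - 1) / 2) * (gram (Module.finBasis ℤ E) B).det := h
      _ ≤ 4 ^ (finrank ℤ E * (finrank ℤ E - 1) / 2) * 1 :=
          mul_le_mul_of_nonneg_left h1 (by positivity)
      _ = _ := mul_one _
  clear h1 h
  generalize finrank ℤ E = n at *
  interval_cases n <;> norm_num at h4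

theorem exists_diagB_definite (n : ℕ) : ∀ (E : Type*) [AddCommGroup E] [Module.Free ℤ E]
    [Module.Finite ℤ E] (B : E →ₗ[ℤ] E →ₗ[ℤ] ℤ), finrank ℤ E = n → n ≤ 5 → IsUni B → PosD B →
      DiagB B n := by
  induction n with
  | zero =>
    intro E _ _ _ B h0 _ _ _
    have : Subsingleton E := Module.finrank_zero_iff.mp h0
    exact diagB_zero fun x => Subsingleton.elim _ _
  | succ n ih =>
    intro E _ _ _ B hn h5 hB hpos
    obtain ⟨x, hx⟩ := hB.exists_norm_one hpos (by omega) (by omega)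
    have hr := finrank_perp (B := B) (e := x) (by rw [hx]; norm_num)
    refine diagB_cons hB.symm hx (Or.inl rfl) (ih (perp B x) (res B (perp B x)) (by omega)
      (by omega) (hB.res_perp hx (by norm_num)) fun y hy => hpos _ fun h => hy (Subtype.ext h))

variable {E E' : Type*} [AddCommGroup E] [AddCommGroup E'] [Module.Free ℤ E] [Module.Finite ℤ E]
  [Module.Free ℤ E'] [Module.Finite ℤ E'] {B : E →ₗ[ℤ] E →ₗ[ℤ] ℤ} {B' : E' →ₗ[ℤ] E' →ₗ[ℤ] ℤ}

/-- **A positive definite unimodular lattice of rank `≤ 5` has an orthonormal basis.** -/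
theorem IsUni.exists_orthonormal (hB : IsUni B) (hpos : PosD B) (h5 : finrank ℤ E ≤ 5) :
    ∃ b : Basis (Fin (finrank ℤ E)) ℤ E, ∀ i j, B (b i) (b j) = if i = j then 1 else 0 := by
  obtain ⟨b, h1, h2⟩ := exists_diagB_definite _ E B rfl h5 hB hpos
  refine ⟨b, fun i j => ?_⟩
  split_ifs with hij
  · subst hij
    refine (h2 i).resolve_right fun h => ?_
    have h3 := hpos _ (b.ne_zero i)
    omega
  · exact h1 i j hij

/-- the positive definite unimodular lattices of rank `n ≤ 5` are isometric -/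
theorem IsUni.iso_of_definite (hB : IsUni B) (hpos : PosD B) (hB' : IsUni B') (hpos' : PosD B')
    (h5 : finrank ℤ E ≤ 5) (h : finrank ℤ E = finrank ℤ E') : Iso B B' := by
  obtain ⟨b, hb⟩ := hB.exists_orthonormal hpos h5
  obtain ⟨b', hb'⟩ := hB'.exists_orthonormal hpos' (by omega)
  have h1 : IsStd B b 0 := fun i j => by rw [hb]; simp
  have h2 : IsStd B' (b'.reindex (finCongr h.symm)) 0 := fun i j => by
    rw [Basis.reindex_apply, Basis.reindex_apply, hb']
    simp
  exact h1.exists_equiv h2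

omit [Module.Free ℤ E'] [Module.Finite ℤ E'] [Module.Free ℤ E] [Module.Finite ℤ E] in
lemma Iso.neg (h : Iso B B') : Iso (-B) (-B') := by
  obtain ⟨e, he⟩ := h
  exact ⟨e, fun x y => by rw [neg_apply2, neg_apply2, he]⟩

theorem IsUni.exists_neg_of_negIdx (hB : IsUni B) (h : 0 < negIdx B) : ∃ y, B y y < 0 := by
  obtain ⟨e, h1, h2⟩ := hB.exists_family
  rw [negIdx_eq_card rfl h1 h2, Finset.card_pos] at h
  obtain ⟨i, hi⟩ := h
  exact ⟨e i, (Finset.mem_filter.mp hi).2⟩

theorem IsUni.exists_pos_of_negIdx (hB : IsUni B) (h : negIdx B < finrank ℤ E) :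
    ∃ x, 0 < B x x := by
  have h1 := hB.negIdx_neg
  obtain ⟨y, hy⟩ := hB.neg.exists_neg_of_negIdx (by omega)
  rw [neg_apply2] at hy
  exact ⟨y, by omega⟩

/-- **The unimodular lattices of rank `≤ 5`** (definite or not) are classified by the rank, the
signature and the parity. -/
theorem IsUni.iso_iff_of_le_five (hB : IsUni B) (hB' : IsUni B') (h5 : finrank ℤ E ≤ 5) :
    Iso B B' ↔ finrank ℤ E = finrank ℤ E' ∧ negIdx B = negIdx B' ∧
      ((∀ x, Even (B x x)) ↔ ∀ x, Even (B' x x)) := by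
  constructor
  · intro h
    refine ⟨h.finrank_eq, h.negIdx_eq hB, ?_⟩
    obtain ⟨e, he⟩ := h
    constructor
    · intro h x
      have h1 := h (e.symm x)
      rwa [← he, e.apply_symm_apply] at h1
    · intro h x
      have h1 := h (e x)
      rwa [he] at h1
  · rintro ⟨h1, h2, h3⟩
    rcases Nat.eq_zero_or_pos (negIdx B) with h | h
    · exact hB.iso_of_definite (fun x hx => hB.pos_of_negIdx h hx) hB'
        (fun x hx => hB'.pos_of_negIdx (h2 ▸ h) hx) h5 h1
    by_cases h4 : negIdx B < finrank ℤ E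
    · have hpos := hB.exists_pos_of_negIdx h4
      have hneg := hB.exists_neg_of_negIdx h
      have hpos' := hB'.exists_pos_of_negIdx (by omega)
      have hneg' := hB'.exists_neg_of_negIdx (by omega)
      by_cases heven : ∀ x, Even (B x x)
      · exact (hB.iso_iff_of_even heven hpos hneg hB' (h3.mp heven) hpos' hneg').mpr ⟨h1, h2⟩
      · have hodd' : ¬ ∀ x, Even (B' x x) := fun h => heven (h3.mpr h)
        push Not at heven hodd'
        obtain ⟨t, ht⟩ := heven
        obtain ⟨t', ht'⟩ := hodd'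
        exact (hB.iso_iff_of_odd ⟨t, Int.not_even_iff_odd.mp ht⟩ hpos hneg hB'
          ⟨t', Int.not_even_iff_odd.mp ht'⟩ hpos' hneg').mpr ⟨h1, h2⟩
    · have h6 := hB.negIdx_neg
      have h7 := hB'.negIdx_neg
      have h8 : Iso (-B) (-B') := hB.neg.iso_of_definite
        (fun x hx => hB.neg.pos_of_negIdx (by omega) hx) hB'.neg
        (fun x hx => hB'.neg.pos_of_negIdx (by omega) hx) h5 h1
      have h9 := h8.neg
      rwa [neg_neg, neg_neg] at h9

end Definite

end Fermat.Agent.Cor.UL
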