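import Fermat.Agent.Corollaries.UL.Rat

/-!
# The odd indefinite unimodular lattices

* `IsUni.exists_orthogonal_basis`: an odd indefinite unimodular lattice has an orthogonal basis
  with `B (b i) (b i) = ± 1`;
* `IsUni.exists_equiv_iff`: two such lattices are isometric iff they have the same rank and
  signature.
-/

set_option autoImplicit false

namespace Fermat.Agent.Cor.UL

open Module Fermat.Agent.Cor.HM

section Diag

variable {E : Type*} [AddCommGroup E] {B : E →ₗ[ℤ] E →ₗ[ℤ] ℤ}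

/-- `B` has an orthogonal basis with values `± 1`. -/
def DiagB (B : E →ₗ[ℤ] E →ₗ[ℤ] ℤ) (n : ℕ) : Prop :=
  ∃ b : Basis (Fin n) ℤ E, (∀ i j, i ≠ j → B (b i) (b j) = 0) ∧
    ∀ i, B (b i) (b i) = 1 ∨ B (b i) (b i) = -1

lemma diagB_zero (h : ∀ x : E, x = 0) : DiagB B 0 := by
  have : Subsingleton E := ⟨fun x y => (h x).trans (h y).symm⟩
  exact ⟨Basis.empty E, fun i => i.elim0, fun i => i.elim0⟩

lemma diagB_cons (hs : ∀ x y, B x y = B y x) {e : E} {u : ℤ} (he : B e e = u)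
    (hu : u = 1 ∨ u = -1) {n : ℕ} (h : DiagB (res B (perp B e)) n) : DiagB B (n + 1) := by
  have hu2 : u * u = 1 := by rcases hu with rfl | rfl <;> norm_num
  obtain ⟨b, h1, h2⟩ := h
  have hli : ∀ (c : ℤ), ∀ x ∈ perp B e, c • e + x = 0 → c = 0 := by
    intro c x hx h0
    have h3 := congrArg (B e) h0
    rw [map_add, map_smul, mem_perp.mp hx, he, map_zero, add_zero, smul_eq_mul] at h3
    have h4 : c * (u * u) = 0 := by linear_combination u * h3
    rwa [hu2, mul_one] at h4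
  have hsp : ∀ z : E, ∃ c : ℤ, z + c • e ∈ perp B e := by
    intro z
    refine ⟨-(u * B e z), ?_⟩
    rw [neg_smul, ← sub_eq_add_neg]
    exact sub_mem_perp he hu2 z
  refine ⟨Basis.mkFinCons e b hli hsp, fun i j hij => ?_, fun i => ?_⟩
  · rw [Basis.coe_mkFinCons]
    rcases Fin.eq_zero_or_eq_succ i with rfl | ⟨i, rfl⟩ <;>
      rcases Fin.eq_zero_or_eq_succ j with rfl | ⟨j, rfl⟩
    · exact absurd rfl hij
    · exact (b j).2
    · change B (b i : E) e = 0
      rw [hs]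
      exact (b i).2
    · exact h1 i j fun h0 => hij (by rw [h0])
  · rw [Basis.coe_mkFinCons]
    rcases Fin.eq_zero_or_eq_succ i with rfl | ⟨i, rfl⟩
    · change B e e = 1 ∨ B e e = -1
      rwa [he]
    · exact h2 i

end Diag

theorem exists_diagB_aux (m : ℕ) :
    ∀ (E : Type*) [AddCommGroup E] [Module.Free ℤ E] [Module.Finite ℤ E]
      (B : E →ₗ[ℤ] E →ₗ[ℤ] ℤ), finrank ℤ E = m → IsUni B → (∃ t, Odd (B t t)) →
      (∃ x, 0 < B x x) → (∃ y, B y y < 0) → ∃ n, DiagB B n := by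
  induction m with
  | zero =>
    intro E _ _ _ B h0 _ _ hpos _
    obtain ⟨x, hx⟩ := hpos
    have : Subsingleton E := Module.finrank_zero_iff.mp h0
    rw [Subsingleton.elim x 0, map_zero] at hx
    exact absurd hx (lt_irrefl _)
  | succ m ih =>
    intro E _ _ _ B hm hB hodd hpos hneg
    obtain ⟨v, hv0, hv⟩ := hB.exists_isotropic hpos hneg
    obtain ⟨e₁, e₂, h1, h2, h12⟩ := hB.exists_pair hv0 hv hodd
    have h21 : B e₂ e₁ = 0 := by rw [hB.symm, h12]
    have hr1 := finrank_perp (B := B) (e := e₁) (by rw [h1]; norm_num)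
    have hr2 := finrank_perp (B := B) (e := e₂) (by rw [h2]; norm_num)
    by_cases hf : ∃ f, B e₁ f = 0 ∧ B e₂ f = 0 ∧ 0 < B f f
    · obtain ⟨f, hf1, hf2, hf3⟩ := hf
      obtain ⟨n, hn⟩ := ih (perp B e₁) (res B (perp B e₁)) (by omega)
        (hB.res_perp h1 (by norm_num)) ⟨⟨e₂, h12⟩, by rw [res_apply]; rw [h2]; decide⟩
        ⟨⟨f, hf1⟩, hf3⟩ ⟨⟨e₂, h12⟩, by rw [res_apply]; rw [h2]; norm_num⟩
      exact ⟨n + 1, diagB_cons hB.symm h1 (Or.inl rfl) hn⟩
    by_cases hg : ∃ f, B e₁ f = 0 ∧ B e₂ f = 0 ∧ B f f < 0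
    · obtain ⟨f, hf1, hf2, hf3⟩ := hg
      obtain ⟨n, hn⟩ := ih (perp B e₂) (res B (perp B e₂)) (by omega)
        (hB.res_perp h2 (by norm_num)) ⟨⟨e₁, h21⟩, by rw [res_apply]; rw [h1]; decide⟩
        ⟨⟨e₁, h21⟩, by rw [res_apply]; rw [h1]; norm_num⟩ ⟨⟨f, hf2⟩, hf3⟩
      exact ⟨n + 1, diagB_cons hB.symm h2 (Or.inr rfl) hn⟩
    have hz : ∀ f, B e₁ f = 0 → B e₂ f = 0 → B f f = 0 := by
      intro f h3 h4
      rcases lt_trichotomy (B f f) 0 with h | h | h
      · exact absurd ⟨f, h3, h4, h⟩ hg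
      · exact h
      · exact absurd ⟨f, h3, h4, h⟩ hf
    have hz' : ∀ x, B e₁ x = 0 → B e₂ x = 0 → x = 0 := by
      intro x h3 h4
      refine hB.inj x fun y => ?_
      have h5 : B e₁ (y - B e₁ y • e₁ + B e₂ y • e₂) = 0 := by
        simp only [map_add, map_sub, map_smul, h1, h12, smul_eq_mul]
        ring
      have h6 : B e₂ (y - B e₁ y • e₁ + B e₂ y • e₂) = 0 := by
        simp only [map_add, map_sub, map_smul, h2, h21, smul_eq_mul]
        ring
      have h7 := hz (x + (y - B e₁ y • e₁ + B e₂ y • e₂)) (by rw [map_add, h3, h5, add_zero])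
        (by rw [map_add, h4, h6, add_zero])
      have h8 := hz x h3 h4
      have h9 := hz _ h5 h6
      have h10 : B x (y - B e₁ y • e₁ + B e₂ y • e₂) = B x y := by
        simp only [map_add, map_sub, map_smul, hB.symm x e₁, hB.symm x e₂, h3, h4, smul_eq_mul]
        ring
      have h11 : B (x + (y - B e₁ y • e₁ + B e₂ y • e₂)) (x + (y - B e₁ y • e₁ + B e₂ y • e₂)) =
          B x x + 2 * B x (y - B e₁ y • e₁ + B e₂ y • e₂) +
            B (y - B e₁ y • e₁ + B e₂ y • e₂) (y - B e₁ y • e₁ + B e₂ y • e₂) := by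
        generalize (y - B e₁ y • e₁ + B e₂ y • e₂) = w
        rw [map_add, map_add, LinearMap.add_apply, LinearMap.add_apply, hB.symm w x]
        ring
      rw [h7, h8, h9, h10] at h11
      omega
    have h3 : DiagB (res (res B (perp B e₁)) (perp (res B (perp B e₁)) ⟨e₂, h12⟩)) 0 :=
      diagB_zero fun x => by
        apply Subtype.ext
        apply Subtype.ext
        exact hz' _ x.1.2 x.2
    have h4 := diagB_cons (B := res B (perp B e₁)) (fun x y => hB.symm _ _) (e := ⟨e₂, h12⟩)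
      (u := -1) h2 (Or.inr rfl) h3
    exact ⟨2, diagB_cons hB.symm h1 (Or.inl rfl) h4⟩

section Main

/-- the values of the standard form `-x₁² - … - x_s² + … + x_n²` in a basis -/
def IsStd {E : Type*} [AddCommGroup E] (B : E →ₗ[ℤ] E →ₗ[ℤ] ℤ) {n : ℕ} (b : Basis (Fin n) ℤ E)
    (s : ℕ) : Prop :=
  ∀ i j, B (b i) (b j) = if i = j then (if (i : ℕ) < s then -1 else 1) else 0

variable {E : Type*} [AddCommGroup E] {B : E →ₗ[ℤ] E →ₗ[ℤ] ℤ}

theorem DiagB.exists_isStd {n : ℕ} (h : DiagB B n) :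
    ∃ s ≤ n, ∃ b : Basis (Fin n) ℤ E, IsStd B b s := by
  obtain ⟨b, h1, h2⟩ := h
  let s := (Finset.univ.filter fun i => B (b i) (b i) = -1).card
  have hs : s ≤ n := (Finset.card_filter_le _ _).trans (by rw [Finset.card_univ, Fintype.card_fin])
  have hcard : Fintype.card {i // B (b i) (b i) = -1} =
      Fintype.card {i : Fin n // (i : ℕ) < s} := by
    rw [Fintype.card_subtype, Fintype.card_subtype, card_lt hs]
  let e := Fintype.equivOfCardEq hcard
  refine ⟨s, hs, b.reindex e.extendSubtype, fun i j => ?_⟩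
  rw [Basis.reindex_apply, Basis.reindex_apply]
  split_ifs with hij hi
  · subst hij
    by_contra h
    have h3 := e.extendSubtype_not_mem _ h
    rw [Equiv.apply_symm_apply] at h3
    exact h3 hi
  · subst hij
    refine (h2 _).resolve_right fun h => hi ?_
    have h3 := e.extendSubtype_mem _ h
    rwa [Equiv.apply_symm_apply] at h3
  · exact h1 _ _ fun h => hij (e.extendSubtype.symm.injective h)

/-- `s` is determined by the form over `ℚ`. -/
theorem IsStd.sigNeg_eq {n s : ℕ} {b₀ : Basis (Fin n) ℤ E} (h : IsStd B b₀ s) (hs : s ≤ n)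
    (b : Basis (Fin n) ℤ E) : sigNeg (qf (gramQ b B)) = s := by
  have h0 : ∀ i, B (b₀ i) (b₀ i) = if (i : ℕ) < s then -1 else 1 := fun i => by
    rw [h, if_pos rfl]
  obtain ⟨a, ha, he, -⟩ := exists_diag_of_family (B := B) b (e := b₀)
    (fun i j hij => by rw [h, if_neg hij]) fun i => by
      rw [h0]
      split_ifs <;> norm_num
  rw [he.sigNeg_eq, sigNeg_wf, negCard_eq_card]
  refine Eq.trans ?_ (card_lt hs)
  congr 1
  ext i
  rw [Finset.mem_filter, Finset.mem_filter, ha, h0]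
  simp only [Finset.mem_univ, true_and]
  split_ifs with h3
  · simp [h3]
  · simp [h3]

/-- Two lattices with the same standard form are isometric. -/
theorem IsStd.exists_equiv {E' : Type*} [AddCommGroup E'] {B' : E' →ₗ[ℤ] E' →ₗ[ℤ] ℤ} {n s : ℕ}
    {b : Basis (Fin n) ℤ E} {b' : Basis (Fin n) ℤ E'} (h : IsStd B b s) (h' : IsStd B' b' s) :
    ∃ e : E ≃ₗ[ℤ] E', ∀ x y, B' (e x) (e y) = B x y := by
  refine ⟨b.equiv b' (Equiv.refl _), fun x y => ?_⟩
  have h1 : B'.compl₁₂ (b.equiv b' (Equiv.refl _)).toLinearMap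
      (b.equiv b' (Equiv.refl _)).toLinearMap = B := by
    refine b.ext fun i => b.ext fun j => ?_
    rw [LinearMap.compl₁₂_apply, LinearEquiv.coe_coe, Basis.equiv_apply, Basis.equiv_apply,
      Equiv.refl_apply, Equiv.refl_apply, h', h]
  exact LinearMap.congr_fun₂ h1 x y

/-- **An odd indefinite unimodular lattice** is `-x₁² - … - x_s² + … + x_n²` in a basis over `ℤ`. -/
theorem IsUni.exists_isStd (hB : IsUni B) (hodd : ∃ t, Odd (B t t)) (hpos : ∃ x, 0 < B x x)
    (hneg : ∃ y, B y y < 0) {n : ℕ} (b : Basis (Fin n) ℤ E) :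
    ∃ b₀ : Basis (Fin n) ℤ E, IsStd B b₀ (sigNeg (qf (gramQ b B))) := by
  have := Module.Free.of_basis b
  have := Module.Finite.of_basis b
  obtain ⟨m, hm⟩ := exists_diagB_aux _ E B rfl hB hodd hpos hneg
  obtain ⟨s, hs, b₀, h⟩ := hm.exists_isStd
  obtain rfl : m = n := by
    have h1 := Module.finrank_eq_card_basis b
    rw [Module.finrank_eq_card_basis b₀, Fintype.card_fin, Fintype.card_fin] at h1
    exact h1
  refine ⟨b₀, ?_⟩
  rwa [h.sigNeg_eq hs b]

/-- **Classification of the odd indefinite unimodular lattices**: they are determined by the rank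
and the signature. -/
theorem IsUni.exists_equiv_iff {E' : Type*} [AddCommGroup E'] {B' : E' →ₗ[ℤ] E' →ₗ[ℤ] ℤ} {n : ℕ}
    (hB : IsUni B) (hodd : ∃ t, Odd (B t t)) (hpos : ∃ x, 0 < B x x) (hneg : ∃ y, B y y < 0)
    (hB' : IsUni B') (hodd' : ∃ t, Odd (B' t t)) (hpos' : ∃ x, 0 < B' x x)
    (hneg' : ∃ y, B' y y < 0) (b : Basis (Fin n) ℤ E) (b' : Basis (Fin n) ℤ E') :
    (∃ e : E ≃ₗ[ℤ] E', ∀ x y, B' (e x) (e y) = B x y) ↔
      sigNeg (qf (gramQ b B)) = sigNeg (qf (gramQ b' B')) := by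
  obtain ⟨b₀, h₀⟩ := hB.exists_isStd hodd hpos hneg b
  obtain ⟨b₀', h₀'⟩ := hB'.exists_isStd hodd' hpos' hneg' b'
  constructor
  · rintro ⟨e, he⟩
    have h1 : IsStd B' (b₀.map e) (sigNeg (qf (gramQ b B))) := fun i j => by
      rw [Basis.map_apply, Basis.map_apply, he, h₀]
    have hs : sigNeg (qf (gramQ b B)) ≤ n := by
      obtain ⟨s, hs, h⟩ := hB.equivalent_std b
      rwa [h.sigNeg_eq, sigNeg_wf, negCard_std hs]
    exact (h1.sigNeg_eq hs b').symm
  · intro h
    rw [h] at h₀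
    exact h₀.exists_equiv h₀'

/-- **An odd indefinite unimodular lattice has an orthogonal basis with values `± 1`.** -/
theorem IsUni.exists_orthogonal_basis [Module.Free ℤ E] [Module.Finite ℤ E] (hB : IsUni B)
    (hodd : ∃ t, Odd (B t t)) (hpos : ∃ x, 0 < B x x) (hneg : ∃ y, B y y < 0) :
    ∃ b : Basis (Fin (finrank ℤ E)) ℤ E, (∀ i j, i ≠ j → B (b i) (b j) = 0) ∧
      ∀ i, B (b i) (b i) = 1 ∨ B (b i) (b i) = -1 := by
  obtain ⟨b, h⟩ := hB.exists_isStd hodd hpos hneg (Module.finBasis ℤ E)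
  refine ⟨b, fun i j hij => by rw [h, if_neg hij], fun i => ?_⟩
  rw [h, if_pos rfl]
  split_ifs
  · exact Or.inr rfl
  · exact Or.inl rfl

end Main

end Fermat.Agent.Cor.UL
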