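import Fermat.Agent.Corollaries.UL.Basic
import Fermat.Agent.Corollaries.HM.ExistRat
import Fermat.Agent.Corollaries.HM.ClassifyPadic
import Fermat.Agent.Corollaries.HM.Hilb.Padic

/-!
# Unimodular lattices over `ℚ`

`E` is a free `ℤ`-module with a unimodular symmetric bilinear form `B` and a basis `b`, and
`qf (gram b B)` is the quadratic form `B x x` over `ℚ` in the coordinates of `b`.

* `IsUni.equivalent_std`: it is equivalent over `ℚ` to `-x₁² - … - x_s² + … + x_n²`;
* `IsUni.equivalent_iff`: two unimodular lattices are equivalent over `ℚ` iff they have the same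
  rank and the same signature;
* `IsUni.exists_isotropic`: an indefinite unimodular lattice has a vector `v ≠ 0` with `B v v = 0`
  (for every rank).
-/

set_option autoImplicit false

namespace Fermat.Agent.Cor.UL

open Module QuadraticMap Matrix Fermat.Agent.Cor.HM Fermat.Agent.Cor.Hilb

section Padic

variable {p : ℕ} [Fact p.Prime]

lemma exists_unit {k : ℤ} (hk : ¬ (p : ℤ) ∣ k) : ∃ u : ℤ_[p]ˣ, ((u : ℤ_[p]) : ℚ_[p]) = (k : ℚ_[p]) := by
  have h1 : IsUnit (k : ℤ_[p]) := by
    rw [PadicInt.isUnit_iff]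
    refine le_antisymm (PadicInt.norm_le_one _) ?_
    by_contra! hcon
    exact hk ((PadicInt.norm_int_lt_one_iff_dvd k).mp hcon)
  obtain ⟨u, hu⟩ := h1
  exact ⟨u, by rw [hu, PadicInt.coe_intCast]⟩

/-- two integers prime to the odd prime `p` -/
lemma isSplitIn_int (hp2 : p ≠ 2) {k l : ℤ} (hk : ¬ (p : ℤ) ∣ k) (hl : ¬ (p : ℤ) ∣ l) :
    IsSplitIn (k : ℚ_[p]) (l : ℚ_[p]) := by
  obtain ⟨u, hu⟩ := exists_unit hk
  obtain ⟨w, hw⟩ := exists_unit hl
  have h1 : hilb (k : ℚ_[p]) (l : ℚ_[p]) = 1 := by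
    rw [← hu, ← hw]
    exact hs_units_odd hp2 u w
  obtain ⟨x, y, z, h0, h2⟩ := hilb_eq_one_iff.mp h1
  exact ⟨x, y, z, h0, h2.symm⟩

theorem hasseTriv_of_not_dvd (hp2 : p ≠ 2) {n : ℕ} {a : Fin n → ℚˣ} {k : Fin n → ℤ}
    (hk : ∀ i, ¬ (p : ℤ) ∣ k i) (ha : ∀ i, (a i : ℚ) = k i) : HasseTrivPadic p a := by
  have h1 : {q : Fin n × Fin n | q.1 < q.2 ∧
      ¬ IsSplitIn ((a q.1 : ℚ) : ℚ_[p]) ((a q.2 : ℚ) : ℚ_[p])} = ∅ := by
    rw [Set.eq_empty_iff_forall_notMem]
    rintro ⟨i, j⟩ ⟨-, h2⟩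
    apply h2
    change IsSplitIn ((a i : ℚ) : ℚ_[p]) ((a j : ℚ) : ℚ_[p])
    rw [ha, ha, Rat.cast_intCast, Rat.cast_intCast]
    exact isSplitIn_int hp2 (hk i) (hk j)
  rw [HasseTrivPadic, h1, Set.ncard_empty]
  exact Even.zero

end Padic

section Two

attribute [local instance] fact_primes

/-- the prime `2` -/
def pr2 : Nat.Primes := ⟨2, Nat.prime_two⟩

/-- the Hasse invariant at `2` from the reciprocity -/
theorem hasse_two_iff {n : ℕ} {a : Fin n → ℚˣ}
    (ha : ∀ (p : ℕ) [Fact p.Prime], p ≠ 2 → HasseTrivPadic p a) :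
    HasseTrivPadic 2 a ↔ ¬ Odd ((negCard a).choose 2) := by
  obtain ⟨-, h1⟩ := finite_hasse_padic a
  rw [← h1]
  by_cases h : HasseTrivPadic 2 a
  · have h2 : {p : Nat.Primes | ¬ HasseTrivPadic (p : ℕ) a} = ∅ := by
      rw [Set.eq_empty_iff_forall_notMem]
      intro p h3
      by_cases hp2 : p = pr2
      · subst hp2
        exact h3 h
      · exact h3 (ha p fun h4 => hp2 (Subtype.ext h4))
    rw [h2, Set.ncard_empty]
    simp [h]
  · have h2 : {p : Nat.Primes | ¬ HasseTrivPadic (p : ℕ) a} = {pr2} := by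
      ext p
      rw [Set.mem_singleton_iff]
      constructor
      · intro h3
        by_contra hp2
        exact h3 (ha p fun h4 => hp2 (Subtype.ext h4))
      · rintro rfl
        exact h
    rw [h2, Set.ncard_singleton]
    simp [h]

theorem equivalent_of_odd {n : ℕ} {a b : Fin n → ℚˣ} (h1 : IsSquare ((∏ i, a i) * ∏ i, b i))
    (h2 : negCard a = negCard b) (ha : ∀ (p : ℕ) [Fact p.Prime], p ≠ 2 → HasseTrivPadic p a)
    (hb : ∀ (p : ℕ) [Fact p.Prime], p ≠ 2 → HasseTrivPadic p b) : (wf a).Equivalent (wf b) := by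
  rw [equivalent_rat_iff_padic]
  refine ⟨h1, h2, fun p hp => ?_⟩
  by_cases hp2 : p = 2
  · subst hp2
    have h3 := hasse_two_iff ha
    have h4 := hasse_two_iff hb
    rw [h2, ← h4] at h3
    exact h3
  · exact ⟨fun _ => hb p hp2, fun _ => ha p hp2⟩

end Two

section Std

/-- the coefficients `-1` (`s` times), `1` (`n - s` times) -/
def std (n s : ℕ) : Fin n → ℚˣ := fun i => if (i : ℕ) < s then -1 else 1

lemma card_lt {n s : ℕ} (hs : s ≤ n) : (Finset.univ.filter fun i : Fin n => (i : ℕ) < s).card = s := by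
  have h1 : (Finset.univ.filter fun i : Fin n => (i : ℕ) < s).image Fin.val = Finset.range s := by
    ext i
    simp only [Finset.mem_image, Finset.mem_filter, Finset.mem_univ, true_and, Finset.mem_range]
    constructor
    · rintro ⟨j, hj, rfl⟩
      exact hj
    · intro hi
      exact ⟨⟨i, lt_of_lt_of_le hi hs⟩, hi, rfl⟩
  rw [← Finset.card_image_of_injective _ Fin.val_injective, h1, Finset.card_range]

lemma negCard_std {n s : ℕ} (hs : s ≤ n) : negCard (std n s) = s := by
  rw [negCard_eq_card]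
  refine Eq.trans ?_ (card_lt hs)
  congr 1
  ext i
  rw [Finset.mem_filter, Finset.mem_filter]
  simp only [Finset.mem_univ, true_and, std]
  split_ifs with h
  · simp [h]
  · simp [h]

lemma prod_std {n s : ℕ} (hs : s ≤ n) : ∏ i, std n s i = (-1) ^ s := by
  simp only [std]
  rw [Finset.prod_ite, Finset.prod_const, Finset.prod_const_one, mul_one, card_lt hs]

theorem hasseTriv_std {n s : ℕ} (p : ℕ) [Fact p.Prime] (hp2 : p ≠ 2) :
    HasseTrivPadic p (std n s) := by
  have h1 : ¬ (p : ℤ) ∣ 1 := by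
    intro h
    have h2 : p ∣ 1 := by exact_mod_cast h
    exact (Fact.out : p.Prime).one_lt.ne' (Nat.dvd_one.mp h2)
  refine hasseTriv_of_not_dvd hp2 (k := fun i => if (i : ℕ) < s then -1 else 1) (fun i => ?_)
    fun i => ?_
  · split_ifs
    · rwa [dvd_neg]
    · exact h1
  · dsimp only [std]
    split_ifs <;> simp

end Std

section Gram

/-- the quadratic form with Gram matrix `G` -/
noncomputable def qf {n : ℕ} (G : Matrix (Fin n) (Fin n) ℚ) : QuadraticForm ℚ (Fin n → ℚ) :=
  LinearMap.BilinMap.toQuadraticMap (Matrix.toBilin' G)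

lemma qf_apply {n : ℕ} (G : Matrix (Fin n) (Fin n) ℚ) (x : Fin n → ℚ) : qf G x = x ⬝ᵥ G *ᵥ x := by
  rw [qf, LinearMap.BilinMap.toQuadraticMap_apply, Matrix.toBilin'_apply']

theorem qf_equivalent {n : ℕ} {G P : Matrix (Fin n) (Fin n) ℚ} {a : Fin n → ℚˣ}
    (h : P * G * Pᵀ = Matrix.diagonal fun i => (a i : ℚ)) : (qf G).Equivalent (wf a) := by
  have hdet : P.det * G.det * P.det = ∏ i, (a i : ℚ) := by
    have h1 := congrArg Matrix.det h
    rwa [Matrix.det_mul, Matrix.det_mul, Matrix.det_transpose, Matrix.det_diagonal] at h1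
  have h0 : Pᵀ.det ≠ 0 := by
    rw [Matrix.det_transpose]
    intro h1
    rw [h1, mul_zero] at hdet
    exact Finset.prod_ne_zero_iff.mpr (fun i _ => (a i).ne_zero) hdet.symm
  have hinv : Invertible Pᵀ := Matrix.invertibleOfIsUnitDet _ (isUnit_iff_ne_zero.mpr h0)
  refine QuadraticMap.Equivalent.symm ⟨{ Pᵀ.toLinearEquiv' hinv with map_app' := fun x => ?_ }⟩
  change qf G (Pᵀ *ᵥ x) = wf a x
  rw [qf_apply, wf_apply, Matrix.mulVec_transpose, ← Matrix.dotProduct_mulVec,
    ← Matrix.mulVec_transpose, Matrix.mulVec_mulVec, Matrix.mulVec_mulVec, h]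
  simp only [dotProduct, Matrix.mulVec_diagonal]
  exact Finset.sum_congr rfl fun i _ => by ring

variable {E : Type*} [AddCommGroup E] {n : ℕ} (b : Basis (Fin n) ℤ E) (B : E →ₗ[ℤ] E →ₗ[ℤ] ℤ)

/-- the Gram matrix of `B` in the basis `b` -/
noncomputable def gram : Matrix (Fin n) (Fin n) ℤ := Matrix.of fun i j => B (b i) (b j)

/-- the Gram matrix of `B` in the basis `b`, over `ℚ` -/
noncomputable def gramQ : Matrix (Fin n) (Fin n) ℚ := (gram b B).map (Int.cast : ℤ → ℚ)

lemma apply_eq (x y : E) : B x y = b.repr x ⬝ᵥ gram b B *ᵥ b.repr y := by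
  conv_lhs => rw [← b.sum_repr x, ← b.sum_repr y]
  simp only [map_sum, map_smul, LinearMap.sum_apply, LinearMap.smul_apply, smul_eq_mul, dotProduct,
    Matrix.mulVec, gram, Matrix.of_apply, Finset.mul_sum]
  rw [Finset.sum_comm]
  exact Finset.sum_congr rfl fun i _ => Finset.sum_congr rfl fun j _ => by ring

/-- the matrix of a family -/
noncomputable def fam {m : ℕ} (e : Fin m → E) : Matrix (Fin m) (Fin n) ℤ := Matrix.of fun i k => b.repr (e i) k

lemma fam_mul {m l : ℕ} (e : Fin m → E) (f : Fin l → E) :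
    fam b e * gram b B * (fam b f)ᵀ = Matrix.of fun i j => B (e i) (f j) := by
  ext i j
  rw [Matrix.of_apply, apply_eq b B, Matrix.mul_apply', Matrix.dotProduct_mulVec]
  rfl

lemma fam_mulQ {m : ℕ} (e : Fin m → E) :
    (fam b e).map (Int.cast : ℤ → ℚ) * gramQ b B * ((fam b e).map (Int.cast : ℤ → ℚ))ᵀ =
      Matrix.of fun i j => (B (e i) (e j) : ℚ) := by
  have h1 := congrArg (fun M : Matrix (Fin m) (Fin m) ℤ => M.map (Int.castRingHom ℚ))
    (fam_mul b B e e)
  simp only [Matrix.map_mul] at h1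
  exact h1

variable {B}

theorem det_gram (hB : IsUni B) : (gram b B).det = 1 ∨ (gram b B).det = -1 := by
  choose x hx using fun i => hB.surj (b.coord i)
  have h3 : fam b b = 1 := by
    ext i j
    rw [fam, Matrix.of_apply, b.repr_self, Finsupp.single_apply, Matrix.one_apply]
  have h1 : fam b x * gram b B = 1 := by
    have h2 := fam_mul b B x b
    rw [h3, Matrix.transpose_one, Matrix.mul_one] at h2
    rw [h2]
    ext i j
    rw [Matrix.of_apply, hx, b.coord_apply, b.repr_self, Finsupp.single_apply, Matrix.one_apply]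
    simp only [eq_comm]
  exact Int.isUnit_iff.mp (Matrix.isUnit_det_of_left_inverse h1)

theorem det_gramQ (hB : IsUni B) : (gramQ b B).det = 1 ∨ (gramQ b B).det = -1 := by
  have h1 : (gramQ b B).det = ((gram b B).det : ℚ) := by
    have h2 := (Int.castRingHom ℚ).map_det (gram b B)
    exact h2.symm
  rw [h1]
  rcases det_gram b hB with h | h <;> rw [h]
  · left; simp
  · right; simp

/-- an orthogonal family of non-isotropic vectors gives a diagonal form -/
theorem exists_diag_of_family {e : Fin n → E} (h : ∀ i j, i ≠ j → B (e i) (e j) = 0)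
    (h0 : ∀ i, B (e i) (e i) ≠ 0) : ∃ a : Fin n → ℚˣ, (∀ i, (a i : ℚ) = B (e i) (e i)) ∧
      (qf (gramQ b B)).Equivalent (wf a) ∧
      ∃ d : ℚ, ∏ i, (a i : ℚ) = d ^ 2 * (gramQ b B).det := by
  have h1 := fam_mulQ b B e
  refine ⟨fun i => Units.mk0 (B (e i) (e i) : ℚ) (Int.cast_ne_zero.mpr (h0 i)), fun i => rfl, ?_, ?_⟩
  · refine qf_equivalent (P := (fam b e).map (Int.cast : ℤ → ℚ)) ?_
    rw [h1]
    ext i j
    rw [Matrix.of_apply, Matrix.diagonal_apply]
    split_ifs with hij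
    · subst hij
      rfl
    · rw [h i j hij, Int.cast_zero]
  · refine ⟨((fam b e).map (Int.cast : ℤ → ℚ)).det, ?_⟩
    have h2 := congrArg Matrix.det h1
    rw [Matrix.det_mul, Matrix.det_mul, Matrix.det_transpose] at h2
    have h3 : (Matrix.of fun i j => (B (e i) (e j) : ℚ)) =
        Matrix.diagonal fun i => (B (e i) (e i) : ℚ) := by
      ext i j
      rw [Matrix.of_apply, Matrix.diagonal_apply]
      split_ifs with hij
      · subst hij
        rfl
      · rw [h i j hij, Int.cast_zero]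
    rw [h3, Matrix.det_diagonal] at h2
    simp only [Units.val_mk0]
    rw [← h2]
    ring

/-- a diagonal form at an odd prime -/
theorem exists_diag_odd (hB : IsUni B) (p : ℕ) [hp : Fact p.Prime] (hp2 : p ≠ 2) :
    ∃ a : Fin n → ℚˣ, (qf (gramQ b B)).Equivalent (wf a) ∧ HasseTrivPadic p a ∧
      IsSquare ((∏ i, a i) * (-1) ^ negCard a) := by
  have := Module.Free.of_basis b
  have := Module.Finite.of_basis b
  have hpp : Prime (p : ℤ) := Nat.prime_iff_prime_int.mp hp.out
  have hp2' : ¬ (p : ℤ) ∣ 2 := by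
    intro h
    have h2 : p ∣ 2 := by exact_mod_cast h
    rcases (Nat.dvd_prime Nat.prime_two).mp h2 with h3 | h3
    · exact hp.out.ne_one h3
    · exact hp2 h3
  obtain ⟨e, he1, he2⟩ := exists_orthogonal_of_odd hpp hp2' n E B hB.symm (hB.ndp _)
    (by rw [Module.finrank_eq_card_basis b, Fintype.card_fin])
  obtain ⟨a, ha, h1, d, hd⟩ := exists_diag_of_family b he1 fun i h0 => he2 i (h0 ▸ dvd_zero _)
  refine ⟨a, h1, hasseTriv_of_not_dvd hp2 he2 ha, ?_⟩
  have hpr : ((∏ i, a i : ℚˣ) : ℚ) = d ^ 2 * (gramQ b B).det := by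
    rw [← hd, Units.coe_prod]
  have hd0 : d ≠ 0 := by
    rintro rfl
    rw [zero_pow two_ne_zero, zero_mul] at hpr
    exact (∏ i, a i).ne_zero hpr
  have hneg := prod_neg_iff a
  refine ⟨Units.mk0 d hd0, Units.ext ?_⟩
  rw [Units.val_mul, hpr, Units.val_mul, Units.val_mk0]
  have hd2 : 0 < d ^ 2 := by positivity
  rcases det_gramQ b hB with h | h
  · rw [hpr, h] at hneg
    have h3 : Even (negCard a) := by
      rw [← Nat.not_odd_iff_even, ← hneg]
      linarith
    rw [h, h3.neg_one_pow, Units.val_one]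
    ring
  · rw [hpr, h] at hneg
    have h3 : Odd (negCard a) := by
      rw [← hneg]
      linarith
    rw [h, h3.neg_one_pow, Units.val_neg, Units.val_one]
    ring

/-- **A unimodular lattice over `ℚ`.** -/
theorem IsUni.equivalent_std (hB : IsUni B) : ∃ s ≤ n, (qf (gramQ b B)).Equivalent (wf (std n s)) := by
  have : Fact (Nat.Prime 3) := ⟨Nat.prime_three⟩
  obtain ⟨a, h1, -, h2⟩ := exists_diag_odd b hB 3 (by norm_num)
  have hs : negCard a ≤ n := by
    rw [negCard_eq_card]
    exact (Finset.card_filter_le _ _).trans (by rw [Finset.card_univ, Fintype.card_fin])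
  refine ⟨negCard a, hs, h1.trans (equivalent_of_odd ?_ (negCard_std hs).symm ?_ ?_)⟩
  · rwa [prod_std hs]
  · intro p hp hp2
    obtain ⟨a', h3, h4, -⟩ := exists_diag_odd b hB p hp2
    exact (((equivalent_rat_iff_padic a a').mp (h1.symm.trans h3)).2.2 p).mpr h4
  · intro p hp hp2
    exact hasseTriv_std p hp2

/-- **A unimodular lattice over `ℚ`** is `-x₁² - … - x_s² + … + x_n²`, `(n - s, s)` the
signature. -/
theorem IsUni.equivalent_std' (hB : IsUni B) :
    (qf (gramQ b B)).Equivalent (wf (std n (sigNeg (qf (gramQ b B))))) := by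
  obtain ⟨s, hs, h⟩ := hB.equivalent_std b
  have h1 : sigNeg (qf (gramQ b B)) = s := by
    rw [h.sigNeg_eq, sigNeg_wf, negCard_std hs]
  rwa [h1]

/-- **Unimodular lattices of the same rank are equivalent over `ℚ` iff they have the same
signature.** -/
theorem IsUni.equivalent_iff {E' : Type*} [AddCommGroup E'] {B' : E' →ₗ[ℤ] E' →ₗ[ℤ] ℤ}
    (hB : IsUni B) (hB' : IsUni B') (b' : Basis (Fin n) ℤ E') :
    (qf (gramQ b B)).Equivalent (qf (gramQ b' B')) ↔
      sigNeg (qf (gramQ b B)) = sigNeg (qf (gramQ b' B')) := by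
  constructor
  · intro h
    exact h.sigNeg_eq
  · intro h
    have h1 := hB.equivalent_std' b
    rw [h] at h1
    exact h1.trans (hB'.equivalent_std' b').symm

lemma qf_repr (x : E) : qf (gramQ b B) (fun i => (b.repr x i : ℚ)) = B x x := by
  rw [qf_apply, apply_eq b B x x]
  simp only [dotProduct, Matrix.mulVec, gramQ, Matrix.map_apply, Int.cast_sum, Int.cast_mul]

lemma exists_wf_std {s : ℕ} (h0 : 0 < s) (h1 : s < n) : ∃ v, v ≠ 0 ∧ wf (std n s) v = 0 := by
  let i0 : Fin n := ⟨0, h0.trans h1⟩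
  let i1 : Fin n := ⟨s, h1⟩
  have h01 : i0 ≠ i1 := fun h => h0.ne (congrArg Fin.val h)
  refine ⟨fun i => if i = i0 ∨ i = i1 then 1 else 0, fun h => ?_, ?_⟩
  · have h2 := congrFun h i0
    simp at h2
  · rw [wf_apply, Fintype.sum_eq_add i0 i1 h01 fun i hi => by
      rw [if_neg (not_or.mpr hi)]
      ring]
    simp [std, i0, i1, h0]

include b in
/-- an indefinite unimodular lattice has an isotropic vector -/
theorem IsUni.exists_isotropic_of_basis (hB : IsUni B) (hpos : ∃ x, 0 < B x x)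
    (hneg : ∃ y, B y y < 0) : ∃ v, v ≠ 0 ∧ B v v = 0 := by
  obtain ⟨s, hs, ⟨e⟩⟩ := hB.equivalent_std b
  have h0 : 0 < s := by
    rw [Nat.pos_iff_ne_zero]
    rintro rfl
    obtain ⟨y, hy⟩ := hneg
    have h1 := e.map_app (fun i => (b.repr y i : ℚ))
    rw [qf_repr, wf_apply] at h1
    have h2 : (0 : ℚ) ≤ B y y := by
      rw [← h1]
      refine Finset.sum_nonneg fun i _ => ?_
      have h3 : ((std n 0 i : ℚˣ) : ℚ) = 1 := by simp [std]
      rw [h3, one_mul]
      exact sq_nonneg _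
    have h3 : (0 : ℤ) ≤ B y y := by exact_mod_cast h2
    omega
  have h1 : s < n := by
    refine lt_of_le_of_ne hs ?_
    rintro rfl
    obtain ⟨x, hx⟩ := hpos
    have h1 := e.map_app (fun i => (b.repr x i : ℚ))
    rw [qf_repr, wf_apply] at h1
    have h2 : (B x x : ℚ) ≤ 0 := by
      rw [← h1]
      refine Finset.sum_nonpos fun i _ => ?_
      have h3 : ((std s s i : ℚˣ) : ℚ) = -1 := by simp [std, i.2]
      rw [h3, neg_one_mul]
      exact neg_nonpos.mpr (sq_nonneg _)
    have h3 : B x x ≤ (0 : ℤ) := by exact_mod_cast h2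
    omega
  obtain ⟨v, hv0, hv⟩ := exists_wf_std h0 h1
  have hw0 : e.symm v ≠ 0 := by
    intro h
    apply hv0
    have h2 := congrArg e h
    rwa [e.apply_symm_apply, map_zero] at h2
  have hw : qf (gramQ b B) (e.symm v) = 0 := by
    rw [e.symm.map_app, hv]
  obtain ⟨N, hN⟩ := IsLocalization.exist_integer_multiples_of_finite (nonZeroDivisors ℤ) (e.symm v)
  choose z hz using hN
  have hx : ∀ i, b.repr (b.equivFun.symm z) i = z i := fun i =>
    congrFun (b.equivFun.apply_symm_apply z) i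
  have hzN : (fun i => (z i : ℚ)) = ((N : ℤ) : ℚ) • e.symm v := by
    ext i
    have h2 := hz i
    rw [Pi.smul_apply, smul_eq_mul]
    simpa using h2
  have hN0 : ((N : ℤ) : ℚ) ≠ 0 := by
    exact_mod_cast nonZeroDivisors.ne_zero N.2
  refine ⟨b.equivFun.symm z, fun h => ?_, ?_⟩
  · apply hw0
    have h2 : (fun i => (z i : ℚ)) = 0 := by
      ext i
      rw [← hx i, h, map_zero]
      simp
    rw [h2] at hzN
    exact (smul_eq_zero.mp hzN.symm).resolve_left hN0
  · have h2 := qf_repr (B := B) b (b.equivFun.symm z)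
    simp only [hx] at h2
    rw [hzN, QuadraticMap.map_smul, hw, smul_zero] at h2
    exact_mod_cast h2.symm

end Gram

/-- **An indefinite unimodular lattice has an isotropic vector.** -/
theorem IsUni.exists_isotropic {E : Type*} [AddCommGroup E] [Module.Free ℤ E] [Module.Finite ℤ E]
    {B : E →ₗ[ℤ] E →ₗ[ℤ] ℤ} (hB : IsUni B) (hpos : ∃ x, 0 < B x x) (hneg : ∃ y, B y y < 0) :
    ∃ v, v ≠ 0 ∧ B v v = 0 :=
  hB.exists_isotropic_of_basis (Module.finBasis ℤ E) hpos hneg

end Fermat.Agent.Cor.UL
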